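/-
Project S35, cell [L]-φ (helper10): THE FAR COMPONENT (prefix `s35l_`).

`B ⊆ F0` a chart, `ϖ` the image of `π`, `P` a vertical prime of `B` (so `B_P` is a discrete
valuation ring with uniformiser `ϖ`: hypotheses `hgen`, `hzpow`), `𝔫` a prime of `B` with
`P ⊄ 𝔫` in the strong form `p ∈ P`, `1 - p ∈ 𝔫` (automatic when `𝔫` is maximal).

* `s35l_far_dense` : WEAK APPROXIMATION: `B_𝔫` is dense in `F0` for the `P`-adic topology: for
  every `ξ ∈ F0` and `N` there is `ω ∈ B_𝔫` with `ω - ξ ∈ ϖ^N B_P`;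
* `s35l_far_fix`   : for `r₁ ∈ F0ˣ` there is `ω ∈ B_𝔫` with `r₁ / (1 + ϖ ω) ≡ 1` modulo `ϖ B_P`.
-/
import Mathlib
import Fermat.Agent.SS.Local.Height1

set_option autoImplicit false
set_option linter.unusedSectionVars false
set_option linter.style.haveILetI false

namespace Fermat.Agent.S35

open Fermat.Agent.SS

universe v

section Far

variable {A0 : Type*} [CommRing A0] {F0 : Type v} [Field F0] [Algebra A0 F0]
variable {B : Subalgebra A0 F0} [IsFractionRing B F0] {π : A0}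
variable (P : Ideal B) [hP : P.IsPrime]

omit [IsFractionRing B F0] in
theorem s35l_memAt_pow {z : F0} (hz : ssl_MemAt F0 P z) (n : ℕ) : ssl_MemAt F0 P (z ^ n) := by
  induction n with
  | zero =>
    rw [pow_zero]
    have := ssl_memAt_algebraMap (F := F0) P (1 : B)
    rwa [map_one] at this
  | succ n ih => rw [pow_succ]; exact ssl_memAt_mul P ih hz

omit [IsFractionRing B F0] in
/-- a fraction with denominator outside `P` lies in `B_P`. -/
theorem s35l_memAt_div {b s : B} (hs : s ∉ P) : ssl_MemAt F0 P ((b : F0) / (s : F0)) := by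
  have hs0 : (s : F0) ≠ 0 := by
    intro h0
    apply hs
    have : s = 0 := Subtype.ext h0
    rw [this]; exact P.zero_mem
  refine ⟨b, s, hs, ?_⟩
  show (b : F0) / (s : F0) * (s : F0) = (b : F0)
  field_simp

variable (hϖ0 : algebraMap A0 F0 π ≠ 0) (hϖP : algebraMap A0 B π ∈ P)
  (hgen : ∀ z ∈ P, ∃ s : B, s ∉ P ∧ algebraMap A0 B π ∣ s * z)
  (hzpow : ∀ z : F0, z ≠ 0 → ∃ k : ℤ, ssl_UnitAt F0 P (z / algebraMap A0 F0 π ^ k))

include hϖ0 hgen in
omit [IsFractionRing B F0] in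
/-- `p / ϖ ∈ B_P` for `p ∈ P`. -/
theorem s35l_far_pdiv {p : B} (hp : p ∈ P) :
    ssl_MemAt F0 P ((p : F0) / algebraMap A0 F0 π) := by
  obtain ⟨s, hs, c, hc⟩ := hgen p hp
  refine ⟨c, s, hs, ?_⟩
  have hc' : (s : F0) * (p : F0) = algebraMap A0 F0 π * (c : F0) :=
    congrArg (fun t : B => (t : F0)) hc
  show (p : F0) / algebraMap A0 F0 π * (s : F0) = (c : F0)
  field_simp
  linear_combination hc'

include hϖ0 hgen hzpow in
/-- a power of `p ∈ P` clears the pole of `ξ` at `P`. -/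
theorem s35l_far_clear {p : B} (hp : p ∈ P) (ξ : F0) :
    ∃ j : ℕ, ssl_MemAt F0 P ((p : F0) ^ j * ξ) := by
  by_cases hξ : ξ = 0
  · refine ⟨0, ?_⟩
    rw [hξ, mul_zero]
    have := ssl_memAt_algebraMap (F := F0) P (0 : B)
    rwa [map_zero] at this
  obtain ⟨k, hk⟩ := hzpow ξ hξ
  refine ⟨(-k).toNat, ?_⟩
  obtain ⟨n, hn⟩ : ∃ n : ℕ, (n : ℤ) = ((-k).toNat : ℤ) + k := by
    refine ⟨(((-k).toNat : ℤ) + k).toNat, Int.toNat_of_nonneg ?_⟩
    have := Int.self_le_toNat (-k)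
    omega
  have h1 : (p : F0) ^ (-k).toNat * ξ =
      ((p : F0) / algebraMap A0 F0 π) ^ (-k).toNat *
        ((algebraMap A0 B π : B) : F0) ^ n * (ξ / algebraMap A0 F0 π ^ k) := by
    have h2 : ((algebraMap A0 B π : B) : F0) ^ n =
        algebraMap A0 F0 π ^ ((-k).toNat : ℤ) * algebraMap A0 F0 π ^ k := by
      rw [← zpow_add₀ hϖ0, ← hn, zpow_natCast]
      rfl
    rw [h2, div_pow, zpow_natCast]
    have h3 := zpow_ne_zero k hϖ0
    have h4 := pow_ne_zero (-k).toNat hϖ0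
    field_simp
  rw [h1]
  refine ssl_memAt_mul P (ssl_memAt_mul P (s35l_memAt_pow P (s35l_far_pdiv P hϖ0 hgen hp) _) ?_)
    (ssl_memAt_of_unitAt P hk)
  exact s35l_memAt_pow P (ssl_memAt_algebraMap (F := F0) P (algebraMap A0 B π)) n

variable (𝔫 : Ideal B) [h𝔫 : 𝔫.IsPrime]

include hϖ0 hgen hzpow in
/-- **weak approximation**: `B_𝔫` is dense in `F0` for the `P`-adic topology. -/
theorem s35l_far_dense {p : B} (hp : p ∈ P) (hp𝔫 : 1 - p ∈ 𝔫) (ξ : F0) (N : ℕ) :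
    ∃ ω : F0, ω ∈ ssl_locSub F0 𝔫 ∧ ssl_MemAt F0 P ((ω - ξ) / algebraMap A0 F0 π ^ N) := by
  obtain ⟨j, β₀, γ₀, hγ₀, hξ⟩ := s35l_far_clear P hϖ0 hgen hzpow hp ξ
  have hξ : (p : F0) ^ j * ξ * (γ₀ : F0) = (β₀ : F0) := hξ
  have hpn : p ∉ 𝔫 := by
    intro h
    have : (1 : B) ∈ 𝔫 := by
      have := 𝔫.add_mem hp𝔫 h
      rwa [sub_add_cancel] at this
    exact h𝔫.ne_top ((Ideal.eq_top_iff_one _).2 this)
  have h1pM : ∀ M : ℕ, 1 - p ^ M ∈ 𝔫 := by
    intro M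
    have h1 : 1 - p ∣ 1 ^ M - p ^ M := sub_dvd_pow_sub_pow 1 p M
    rw [one_pow] at h1
    exact Ideal.mem_of_dvd 𝔫 h1 hp𝔫
  set M := N + j + 1 with hM
  set γ' : B := γ₀ * (1 - p ^ M) + p ^ M with hγ'
  have hγ'n : γ' ∉ 𝔫 := by
    intro h
    have h2 : p ^ M ∈ 𝔫 := by
      have := 𝔫.sub_mem h (𝔫.mul_mem_left γ₀ (h1pM M))
      rwa [hγ', add_sub_cancel_left] at this
    exact hpn (h𝔫.mem_of_pow_mem M h2)
  have hpMP : p ^ M ∈ P := by
    rw [hM, pow_succ]; exact P.mul_mem_left _ hp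
  have hγ'P : γ' ∉ P := by
    intro h
    apply hγ₀
    have h2 : γ₀ = γ' - p ^ M * (1 - γ₀) := by rw [hγ']; ring
    rw [h2]
    exact P.sub_mem h (P.mul_mem_right _ hpMP)
  have hp0 : (p : F0) ≠ 0 := by
    intro h0
    apply hpn
    have : p = 0 := Subtype.ext h0
    rw [this]; exact 𝔫.zero_mem
  have hγ₀0 : (γ₀ : F0) ≠ 0 := by
    intro h0
    apply hγ₀
    have : γ₀ = 0 := Subtype.ext h0
    rw [this]; exact P.zero_mem
  have hγ'0 : (γ' : F0) ≠ 0 := by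
    intro h0
    apply hγ'P
    have : γ' = 0 := Subtype.ext h0
    rw [this]; exact P.zero_mem
  refine ⟨(β₀ : F0) / ((p : F0) ^ j * (γ' : F0)), ?_, ?_⟩
  · refine (ssl_mem_locSub 𝔫 _).2 ⟨β₀, p ^ j * γ', ?_, ?_⟩
    · intro h
      rcases h𝔫.mem_or_mem h with h3 | h3
      · exact hpn (h𝔫.mem_of_pow_mem j h3)
      · exact hγ'n h3
    · show (β₀ : F0) / ((p : F0) ^ j * (γ' : F0)) * (((p ^ j * γ' : B) : B) : F0) = (β₀ : F0)
      push_cast
      have := pow_ne_zero j hp0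
      field_simp
  · have hγ'F : (γ' : F0) = (γ₀ : F0) * (1 - (p : F0) ^ M) + (p : F0) ^ M := by
      rw [hγ']; push_cast; ring
    have hξ' : ξ = (β₀ : F0) / ((p : F0) ^ j * (γ₀ : F0)) := by
      have := pow_ne_zero j hp0
      rw [← hξ]; field_simp
    have h4 : ((β₀ : F0) / ((p : F0) ^ j * (γ' : F0)) - ξ) / algebraMap A0 F0 π ^ N =
        ((p : F0) / algebraMap A0 F0 π) ^ N *
          (((p * β₀ * (γ₀ - 1) : B) : F0) / ((γ' * γ₀ : B) : F0)) := by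
      have h5 : (γ₀ : F0) - (γ' : F0) = (p : F0) ^ N * (p : F0) ^ j * (p : F0) * ((γ₀ : F0) - 1) := by
        rw [hγ'F, hM, pow_succ, pow_add]; ring
      have h6 := pow_ne_zero j hp0
      have h7 := pow_ne_zero N hϖ0
      rw [hξ', div_pow]
      push_cast
      field_simp
      linear_combination ((β₀ : F0)) * h5
    rw [h4]
    refine ssl_memAt_mul P (s35l_memAt_pow P (s35l_far_pdiv P hϖ0 hgen hp) N) (s35l_memAt_div P ?_)
    intro h
    rcases hP.mem_or_mem h with h3 | h3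
    · exact hγ'P h3
    · exact hγ₀ h3

include hϖ0 hϖP hgen hzpow in
/-- **the far correction**: `r₁ / (1 + ϖ ω) ≡ 1` modulo `ϖ B_P` for some `ω ∈ B_𝔫`. -/
theorem s35l_far_fix {p : B} (hp : p ∈ P) (hp𝔫 : 1 - p ∈ 𝔫) {r₁ : F0} (hr₁ : r₁ ≠ 0) :
    ∃ ω : F0, ω ∈ ssl_locSub F0 𝔫 ∧ 1 + algebraMap A0 F0 π * ω ≠ 0 ∧
      ssl_MemAt F0 P ((r₁ / (1 + algebraMap A0 F0 π * ω) - 1) / algebraMap A0 F0 π) := by
  obtain ⟨k, hk⟩ := hzpow r₁ hr₁
  set N : ℕ := k.toNat with hN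
  obtain ⟨n', hn'⟩ : ∃ n' : ℕ, (n' : ℤ) = (N : ℤ) - k := by
    refine ⟨((N : ℤ) - k).toNat, Int.toNat_of_nonneg ?_⟩
    have := Int.self_le_toNat k
    omega
  obtain ⟨ω, hωR, hδ⟩ := s35l_far_dense P hϖ0 hgen hzpow 𝔫 hp hp𝔫
    ((r₁ - 1) / algebraMap A0 F0 π) N
  -- `ε = ϖ^N δ / r₁ ∈ B_P`
  have hε : ssl_MemAt F0 P (algebraMap A0 F0 π ^ N *
      ((ω - (r₁ - 1) / algebraMap A0 F0 π) / algebraMap A0 F0 π ^ N) / r₁) := by
    have h1 : algebraMap A0 F0 π ^ N *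
        ((ω - (r₁ - 1) / algebraMap A0 F0 π) / algebraMap A0 F0 π ^ N) / r₁ =
        ((algebraMap A0 B π : B) : F0) ^ n' *
          ((ω - (r₁ - 1) / algebraMap A0 F0 π) / algebraMap A0 F0 π ^ N) *
          (r₁ / algebraMap A0 F0 π ^ k)⁻¹ := by
      have h2 : ((algebraMap A0 B π : B) : F0) ^ n' =
          algebraMap A0 F0 π ^ (N : ℤ) * (algebraMap A0 F0 π ^ k)⁻¹ := by
        rw [← zpow_neg, ← zpow_add₀ hϖ0, ← sub_eq_add_neg, ← hn', zpow_natCast]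
        rfl
      rw [h2, zpow_natCast]
      have h3 := zpow_ne_zero k hϖ0
      have h4 := pow_ne_zero N hϖ0
      field_simp
    rw [h1]
    exact ssl_memAt_mul P (ssl_memAt_mul P
      (s35l_memAt_pow P (ssl_memAt_algebraMap (F := F0) P (algebraMap A0 B π)) n') hδ)
      (ssl_memAt_of_unitAt P (ssl_unitAt_inv P hk))
  obtain ⟨a, s, hs, hεs⟩ := hε
  have hεs : algebraMap A0 F0 π ^ N *
      ((ω - (r₁ - 1) / algebraMap A0 F0 π) / algebraMap A0 F0 π ^ N) / r₁ * (s : F0) = (a : F0) :=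
    hεs
  have hs0 : (s : F0) ≠ 0 := by
    intro h0
    apply hs
    have : s = 0 := Subtype.ext h0
    rw [this]; exact P.zero_mem
  -- `s + ϖ a ∉ P`
  have hsa : s + algebraMap A0 B π * a ∉ P := by
    intro h
    apply hs
    have := P.sub_mem h (P.mul_mem_right a hϖP)
    rwa [add_sub_cancel_right] at this
  have hsa0 : (s : F0) + algebraMap A0 F0 π * (a : F0) ≠ 0 := by
    intro h0
    apply hsa
    have : s + algebraMap A0 B π * a = 0 := Subtype.ext (by push_cast; exact h0)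
    rw [this]; exact P.zero_mem
  -- `w = r₁ (s + ϖ a) / s`
  have hN0 := pow_ne_zero N hϖ0
  have hw : 1 + algebraMap A0 F0 π * ω =
      r₁ * ((s : F0) + algebraMap A0 F0 π * (a : F0)) / (s : F0) := by
    rw [← hεs]
    field_simp
    ring
  refine ⟨ω, hωR, ?_, ?_⟩
  · rw [hw]
    exact div_ne_zero (mul_ne_zero hr₁ hsa0) hs0
  · refine ⟨-a, s + algebraMap A0 B π * a, hsa, ?_⟩
    show (r₁ / (1 + algebraMap A0 F0 π * ω) - 1) / algebraMap A0 F0 π *
      (((s + algebraMap A0 B π * a : B) : B) : F0) = ((-a : B) : F0)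
    rw [hw]
    push_cast
    field_simp
    ring

end Far

end Fermat.Agent.S35
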