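/-
Project S35, cell [L]-φ (helper10): THE SEMILOCAL GAUSS RING OF A CHART WITH TWO VERTICAL PRIMES
(prefix `s35l_`).

`B ⊆ F0` an `A0`-subalgebra (a chart), `ϖ` the image of `π ∈ A0`, `P1, P2` two incomparable primes of
`B` with `ϖ B = P1 ⊓ P2`.  Then `sfc_S B ϖ = B ∖ (P1 ∪ P2)` and

* `s35l_mem_O_iff`   : `z ∈ sfc_O B ϖ ↔ z ∈ B_{P1} ∧ z ∈ B_{P2}`;
* `s35l_mem_piO_iff` : `z ∈ sfc_piO B ϖ ↔ z / ϖ ∈ B_{P1} ∧ z / ϖ ∈ B_{P2}`;
* `s35l_vert_gen`, `s35l_vert_height` : `P_i B_{P_i} = ϖ B_{P_i}` and `P_i` has height one, so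
  `B_{P_i}` is a discrete valuation ring with uniformiser `ϖ` (`s35l_vert_zpow`);
* `s35l_piO_inter_loc` : `ϖ O ∩ B_𝔫 = ϖ B_𝔫` for every prime `𝔫` of `B`.
-/
import Mathlib
import Fermat.Agent.SS.SFC.Gauss
import Fermat.Agent.SS.Local.Point

set_option autoImplicit false
set_option linter.unusedSectionVars false
set_option linter.style.haveILetI false

namespace Fermat.Agent.S35

open Fermat.Agent.SS

universe v

section Gauss2

variable {A0 : Type*} [CommRing A0] {F0 : Type v} [Field F0] [Algebra A0 F0]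
variable {B : Subalgebra A0 F0} {π : A0} {P1 P2 : Ideal B} [hP1 : P1.IsPrime] [hP2 : P2.IsPrime]

/-- an element outside `P1 ∪ P2` is a non-zero-divisor modulo `ϖ`. -/
theorem s35l_mem_S (hrad : Ideal.span {algebraMap A0 B π} = P1 ⊓ P2) {s : B} (h1 : s ∉ P1)
    (h2 : s ∉ P2) : (s : F0) ∈ sfc_S B.toSubring (algebraMap A0 F0 π) := by
  refine ⟨s.2, ?_, ?_⟩
  · intro h0
    apply h1
    have : s = 0 := Subtype.ext h0
    rw [this]; exact P1.zero_mem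
  · rintro b hb ⟨c, hc, h⟩
    have hmem : s * ⟨b, hb⟩ ∈ Ideal.span {algebraMap A0 B π} := by
      rw [Ideal.mem_span_singleton]
      exact ⟨⟨c, hc⟩, Subtype.ext h⟩
    rw [hrad] at hmem
    have hb1 : (⟨b, hb⟩ : B) ∈ P1 := (hP1.mem_or_mem hmem.1).resolve_left h1
    have hb2 : (⟨b, hb⟩ : B) ∈ P2 := (hP2.mem_or_mem hmem.2).resolve_left h2
    have hb' : (⟨b, hb⟩ : B) ∈ Ideal.span {algebraMap A0 B π} := by rw [hrad]; exact ⟨hb1, hb2⟩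
    obtain ⟨c', hc'⟩ := Ideal.mem_span_singleton.1 hb'
    exact ⟨c', c'.2, congrArg Subtype.val hc'⟩

/-- an element of `S` lies outside `Q` when `ϖ B = Q ⊓ Q'` and `Q' ⊄ Q`. -/
theorem s35l_not_mem_of_mem_S {Q Q' : Ideal B}
    (hr : Ideal.span {algebraMap A0 B π} = Q ⊓ Q') (hnle : ¬ Q' ≤ Q) {s : B}
    (hs : (s : F0) ∈ sfc_S B.toSubring (algebraMap A0 F0 π)) : s ∉ Q := by
  intro hsQ
  obtain ⟨t, htQ', htQ⟩ := Set.not_subset.1 hnle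
  have hmem : s * t ∈ Ideal.span {algebraMap A0 B π} := by
    rw [hr]; exact ⟨Q.mul_mem_right _ hsQ, Q'.mul_mem_left _ htQ'⟩
  obtain ⟨c, hc⟩ := Ideal.mem_span_singleton.1 hmem
  obtain ⟨c', hc', h'⟩ := hs.2.2 t t.2 ⟨c, c.2, congrArg Subtype.val hc⟩
  apply htQ
  have : t ∈ Ideal.span {algebraMap A0 B π} :=
    Ideal.mem_span_singleton.2 ⟨⟨c', hc'⟩, Subtype.ext h'⟩
  rw [hr] at this
  exact this.1

/-- **the semilocal Gauss ring is `B_{P1} ∩ B_{P2}`.** -/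
theorem s35l_mem_O_iff (hrad : Ideal.span {algebraMap A0 B π} = P1 ⊓ P2) (h12 : ¬ P1 ≤ P2)
    (h21 : ¬ P2 ≤ P1) {z : F0} :
    z ∈ sfc_O B.toSubring (algebraMap A0 F0 π) ↔ ssl_MemAt F0 P1 z ∧ ssl_MemAt F0 P2 z := by
  constructor
  · rintro ⟨s, hs, hsz⟩
    have hs1 : (⟨s, hs.1⟩ : B) ∉ P1 := s35l_not_mem_of_mem_S hrad h21 hs
    have hs2 : (⟨s, hs.1⟩ : B) ∉ P2 :=
      s35l_not_mem_of_mem_S (by rw [hrad, inf_comm]) h12 hs
    refine ⟨⟨⟨s * z, hsz⟩, ⟨s, hs.1⟩, hs1, ?_⟩, ⟨⟨s * z, hsz⟩, ⟨s, hs.1⟩, hs2, ?_⟩⟩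
    · show z * s = s * z
      ring
    · show z * s = s * z
      ring
  · rintro ⟨⟨a1, s1, hs1, h1⟩, ⟨a2, s2, hs2, h2⟩⟩
    obtain ⟨t1, ht1P1, ht1P2⟩ := Set.not_subset.1 h12
    obtain ⟨t2, ht2P2, ht2P1⟩ := Set.not_subset.1 h21
    -- `s = s1 t2 + s2 t1` lies outside `P1 ∪ P2`
    have hsP1 : s1 * t2 + s2 * t1 ∉ P1 := by
      intro hm
      have h3 : s1 * t2 ∈ P1 := by
        have := P1.sub_mem hm (P1.mul_mem_left s2 ht1P1)
        rwa [add_sub_cancel_right] at this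
      exact (hP1.mem_or_mem h3).elim hs1 ht2P1
    have hsP2 : s1 * t2 + s2 * t1 ∉ P2 := by
      intro hm
      have h3 : s2 * t1 ∈ P2 := by
        have := P2.sub_mem hm (P2.mul_mem_left s1 ht2P2)
        rwa [add_sub_cancel_left] at this
      exact (hP2.mem_or_mem h3).elim hs2 ht1P2
    refine ⟨((s1 * t2 + s2 * t1 : B) : F0), s35l_mem_S hrad hsP1 hsP2, ?_⟩
    have h1' : z * (s1 : F0) = (a1 : F0) := h1
    have h2' : z * (s2 : F0) = (a2 : F0) := h2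
    have : ((s1 * t2 + s2 * t1 : B) : F0) * z = ((a1 * t2 + a2 * t1 : B) : F0) := by
      push_cast
      rw [← h1', ← h2']
      ring
    rw [this]
    exact (a1 * t2 + a2 * t1 : B).2

/-- **`ϖ O` in terms of the two localisations.** -/
theorem s35l_mem_piO_iff (hϖ0 : algebraMap A0 F0 π ≠ 0)
    (hrad : Ideal.span {algebraMap A0 B π} = P1 ⊓ P2) (h12 : ¬ P1 ≤ P2) (h21 : ¬ P2 ≤ P1)
    {z : F0} :
    z ∈ sfc_piO B.toSubring (algebraMap A0 F0 π) ↔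
      ssl_MemAt F0 P1 (z / algebraMap A0 F0 π) ∧ ssl_MemAt F0 P2 (z / algebraMap A0 F0 π) := by
  rw [← s35l_mem_O_iff hrad h12 h21]
  constructor
  · rintro ⟨y, hy, rfl⟩
    rwa [mul_div_cancel_left₀ _ hϖ0]
  · intro h
    exact ⟨_, h, by rw [mul_div_cancel₀ _ hϖ0]⟩

/-- `Q B_Q = ϖ B_Q` when `ϖ B = Q ⊓ Q'`, `Q' ⊄ Q`. -/
theorem s35l_vert_gen {Q Q' : Ideal B}
    (hr : Ideal.span {algebraMap A0 B π} = Q ⊓ Q') (hnle : ¬ Q' ≤ Q) :
    ∀ z ∈ Q, ∃ s : B, s ∉ Q ∧ algebraMap A0 B π ∣ s * z := by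
  intro z hz
  obtain ⟨t, htQ', htQ⟩ := Set.not_subset.1 hnle
  refine ⟨t, htQ, ?_⟩
  rw [← Ideal.mem_span_singleton, hr]
  exact ⟨Q.mul_mem_left _ hz, Q'.mul_mem_right _ htQ'⟩

/-- a vertical prime has height one. -/
theorem s35l_vert_height [IsNoetherianRing B] (hϖ0 : algebraMap A0 F0 π ≠ 0) {Q Q' : Ideal B}
    [hQ : Q.IsPrime]
    (hr : Ideal.span {algebraMap A0 B π} = Q ⊓ Q') (hnle : ¬ Q' ≤ Q) : Q.height = 1 := by
  have hϖQ : algebraMap A0 B π ∈ Q := by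
    have : algebraMap A0 B π ∈ Ideal.span {algebraMap A0 B π} := Ideal.mem_span_singleton_self _
    rw [hr] at this
    exact this.1
  have hϖB : algebraMap A0 B π ≠ 0 := by
    intro h0
    apply hϖ0
    have := congrArg (fun t : B => (t : F0)) h0
    simpa using this
  apply le_antisymm
  · refine Ideal.height_le_one_of_isPrincipal_of_mem_minimalPrimes
      (Ideal.span {algebraMap A0 B π}) Q ⟨⟨hQ, ?_⟩, ?_⟩
    · rw [Ideal.span_le, Set.singleton_subset_iff]; exact hϖQ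
    · rintro p ⟨hp, hple⟩ hpQ
      rw [hr] at hple
      rcases (Ideal.IsPrime.inf_le hp).1 hple with h | h
      · exact h
      · exact absurd (h.trans hpQ) hnle
  · rw [Order.one_le_iff_pos, pos_iff_ne_zero, Ne, Ideal.height_eq_zero_iff_eq_bot]
    intro h0
    rw [h0, Ideal.mem_bot] at hϖQ
    exact hϖB hϖQ

/-- **the order at a vertical prime**: every nonzero `z` is `ϖ ^ k` times a unit of `B_Q`. -/
theorem s35l_vert_zpow [IsFractionRing B F0] [IsNoetherianRing B] [IsIntegrallyClosed B]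
    (hϖ0 : algebraMap A0 F0 π ≠ 0) {Q Q' : Ideal B}
    [hQ : Q.IsPrime]
    (hr : Ideal.span {algebraMap A0 B π} = Q ⊓ Q') (hnle : ¬ Q' ≤ Q) {z : F0} (hz : z ≠ 0) :
    ∃ k : ℤ, ssl_UnitAt F0 Q (z / algebraMap A0 F0 π ^ k) := by
  have hϖQ : algebraMap A0 B π ∈ Q := by
    have : algebraMap A0 B π ∈ Ideal.span {algebraMap A0 B π} := Ideal.mem_span_singleton_self _
    rw [hr] at this
    exact this.1
  exact ssl_exists_zpow (F := F0) Q (s35l_vert_height hϖ0 hr hnle) hϖQ (s35l_vert_gen hr hnle) hz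

/-- **`ϖ O ∩ B_𝔫 = ϖ B_𝔫`.** -/
theorem s35l_piO_inter_loc [IsFractionRing B F0] (hϖ0 : algebraMap A0 F0 π ≠ 0) (𝔫 : Ideal B)
    [h𝔫 : 𝔫.IsPrime] {z : F0}
    (hz : z ∈ sfc_piO B.toSubring (algebraMap A0 F0 π)) (hzR : z ∈ ssl_locSub F0 𝔫) :
    z / algebraMap A0 F0 π ∈ ssl_locSub F0 𝔫 := by
  obtain ⟨y, ⟨s, hs, hsy⟩, rfl⟩ := hz
  rw [mul_div_cancel_left₀ _ hϖ0]
  obtain ⟨a, c, hc, hac⟩ := (ssl_mem_locSub 𝔫 _).1 hzR
  have hac : algebraMap A0 F0 π * y * (c : F0) = (a : F0) := hac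
  -- `s a = ϖ (s y) c`
  obtain ⟨a', ha', haa'⟩ := hs.2.2 (a : F0) a.2 ⟨s * y * (c : F0), B.mul_mem hsy c.2, by
    rw [← hac]; ring⟩
  refine (ssl_mem_locSub 𝔫 _).2 ⟨⟨a', ha'⟩, c, hc, ?_⟩
  show y * (c : F0) = a'
  apply mul_left_cancel₀ hϖ0
  rw [← haa', ← hac]
  ring

end Gauss2

end Fermat.Agent.S35
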