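/-
Project S35, cell [L]-φ (helper10): FROM THE CHART TO THE LOCAL RING (prefix `s35l_`).

`B ⊆ F0` a chart, `𝔫` a prime of `B`, `R = B_𝔫 = ssl_locSub F0 𝔫`, `P ≤ 𝔫` a prime of `B`.  Then
`P R` is a prime of `R` with `P R ∩ B = P` and `R_{P R} = B_P` inside `F0`:

* `s35l_memAt_map_iff`, `s35l_unitAt_map_iff` : `ssl_MemAt (P R) z ↔ ssl_MemAt P z`, same for units;
* `s35l_vert_cases` : if `ϖ B = P1 ⊓ P2` then every prime of height one of `R` containing `ϖ` is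
  `P1 R` (and `P1 ≤ 𝔫`) or `P2 R` (and `P2 ≤ 𝔫`).
-/
import Mathlib
import Fermat.Agent.SS.Local.Point

set_option autoImplicit false
set_option linter.unusedSectionVars false
set_option linter.style.haveILetI false

namespace Fermat.Agent.S35

open Fermat.Agent.SS

universe v

section Transfer

variable {A0 : Type*} [CommRing A0] {F0 : Type v} [Field F0] [Algebra A0 F0]
variable {B : Subalgebra A0 F0} [IsFractionRing B F0]
variable (𝔫 : Ideal B) [h𝔫 : 𝔫.IsPrime] (P : Ideal B) [hP : P.IsPrime]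

theorem s35l_disjoint (hP𝔫 : P ≤ 𝔫) : Disjoint (𝔫.primeCompl : Set B) (P : Set B) := by
  rw [Set.disjoint_left]
  intro b hb hbP
  exact hb (hP𝔫 hbP)

theorem s35l_map_isPrime (hP𝔫 : P ≤ 𝔫) :
    (P.map (algebraMap B (ssl_locSub F0 𝔫))).IsPrime :=
  IsLocalization.isPrime_of_isPrime_disjoint 𝔫.primeCompl _ P hP (s35l_disjoint 𝔫 P hP𝔫)

theorem s35l_mem_map_iff (hP𝔫 : P ≤ 𝔫) (b : B) :
    algebraMap B (ssl_locSub F0 𝔫) b ∈ P.map (algebraMap B (ssl_locSub F0 𝔫)) ↔ b ∈ P := by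
  have h := IsLocalization.under_map_of_isPrime_disjoint 𝔫.primeCompl (ssl_locSub F0 𝔫) hP
    (s35l_disjoint 𝔫 P hP𝔫)
  constructor
  · intro hb
    have : b ∈ (P.map (algebraMap B (ssl_locSub F0 𝔫))).under B := hb
    rwa [h] at this
  · intro hb
    exact Ideal.mem_map_of_mem _ hb

/-- an element of `B` outside `𝔫` is a unit of `R`. -/
theorem s35l_loc_isUnit {s : B} (hs : s ∉ 𝔫) : IsUnit (algebraMap B (ssl_locSub F0 𝔫) s) :=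
  (IsLocalization.AtPrime.isUnit_to_map_iff (ssl_locSub F0 𝔫) 𝔫 s).2 hs

/-- numerators: `r ∈ R`, `r c = a` with `c ∉ 𝔫`; then `r ∈ P R ↔ a ∈ P`. -/
theorem s35l_mem_map_of_frac (hP𝔫 : P ≤ 𝔫) (r : ssl_locSub F0 𝔫) {a c : B} (hc : c ∉ 𝔫)
    (h : (r : F0) * (c : F0) = (a : F0)) :
    r ∈ P.map (algebraMap B (ssl_locSub F0 𝔫)) ↔ a ∈ P := by
  have h1 : r * algebraMap B (ssl_locSub F0 𝔫) c = algebraMap B (ssl_locSub F0 𝔫) a :=
    Subtype.ext h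
  rw [← s35l_mem_map_iff 𝔫 P hP𝔫, ← h1, mul_comm]
  exact (Ideal.unit_mul_mem_iff_mem _ (s35l_loc_isUnit 𝔫 hc)).symm

/-- **`R_{P R} = B_P`.** -/
theorem s35l_memAt_map_iff (hP𝔫 : P ≤ 𝔫) {z : F0} :
    ssl_MemAt F0 (P.map (algebraMap B (ssl_locSub F0 𝔫))) z ↔ ssl_MemAt F0 P z := by
  constructor
  · rintro ⟨a, s, hs, h⟩
    have h : z * (s : F0) = (a : F0) := h
    obtain ⟨s', c, hc, hsc⟩ := (ssl_mem_locSub 𝔫 _).1 s.2
    obtain ⟨a', c', hc', hac⟩ := (ssl_mem_locSub 𝔫 _).1 a.2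
    have hsc : (s : F0) * (c : F0) = (s' : F0) := hsc
    have hac : (a : F0) * (c' : F0) = (a' : F0) := hac
    have hs' : s' ∉ P := fun hm => hs ((s35l_mem_map_of_frac 𝔫 P hP𝔫 s hc hsc).2 hm)
    refine ⟨a' * c, s' * c', fun hm => (hP.mem_or_mem hm).elim hs' (fun h3 => hc' (hP𝔫 h3)), ?_⟩
    show z * (((s' * c' : B) : B) : F0) = (((a' * c : B) : B) : F0)
    push_cast
    rw [← hsc, ← hac, ← h]
    ring
  · rintro ⟨a, s, hs, h⟩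
    exact ⟨algebraMap B _ a, algebraMap B _ s, fun hm => hs ((s35l_mem_map_iff 𝔫 P hP𝔫 s).1 hm), h⟩

theorem s35l_unitAt_map_iff (hP𝔫 : P ≤ 𝔫) {z : F0} :
    ssl_UnitAt F0 (P.map (algebraMap B (ssl_locSub F0 𝔫))) z ↔ ssl_UnitAt F0 P z := by
  haveI := s35l_map_isPrime 𝔫 P hP𝔫
  by_cases hz : z = 0
  · subst hz
    constructor
    · intro h; exact absurd rfl (ssl_unitAt_ne_zero _ h)
    · intro h; exact absurd rfl (ssl_unitAt_ne_zero _ h)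
  rw [ssl_unitAt_iff _ hz, ssl_unitAt_iff _ hz, s35l_memAt_map_iff 𝔫 P hP𝔫,
    s35l_memAt_map_iff 𝔫 P hP𝔫]

/-- an element of `R` lies in `B_P` for `P ≤ 𝔫`. -/
theorem s35l_memAt_of_mem_loc (hP𝔫 : P ≤ 𝔫) {z : F0} (hz : z ∈ ssl_locSub F0 𝔫) :
    ssl_MemAt F0 P z := by
  obtain ⟨a, c, hc, h⟩ := (ssl_mem_locSub 𝔫 _).1 hz
  exact ⟨a, c, fun hm => hc (hP𝔫 hm), h⟩

end Transfer

section Vert

variable {A0 : Type*} [CommRing A0] {F0 : Type v} [Field F0] [Algebra A0 F0]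
variable {B : Subalgebra A0 F0} [IsFractionRing B F0] [IsNoetherianRing B]
variable (𝔫 : Ideal B) [h𝔫 : 𝔫.IsPrime] {π : A0} {P1 P2 : Ideal B} [hP1 : P1.IsPrime]
  [hP2 : P2.IsPrime]

/-- **the vertical primes of `R`.** -/
theorem s35l_vert_cases (hϖ0 : algebraMap A0 F0 π ≠ 0)
    (hrad : Ideal.span {algebraMap A0 B π} = P1 ⊓ P2)
    (𝔮 : Ideal (ssl_locSub F0 𝔫)) [h𝔮 : 𝔮.IsPrime] (h1 : 𝔮.height = 1)
    (hϖ𝔮 : algebraMap B (ssl_locSub F0 𝔫) (algebraMap A0 B π) ∈ 𝔮) :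
    (P1 ≤ 𝔫 ∧ 𝔮 = P1.map (algebraMap B (ssl_locSub F0 𝔫))) ∨
      (P2 ≤ 𝔫 ∧ 𝔮 = P2.map (algebraMap B (ssl_locSub F0 𝔫))) := by
  set 𝔮₀ : Ideal B := 𝔮.under B with h𝔮₀
  haveI : 𝔮₀.IsPrime := Ideal.comap_isPrime _ 𝔮
  have h1' : 𝔮₀.height = 1 := by
    rw [h𝔮₀, IsLocalization.height_under 𝔫.primeCompl 𝔮, h1]
  have hmap : 𝔮₀.map (algebraMap B (ssl_locSub F0 𝔫)) = 𝔮 :=
    IsLocalization.map_under 𝔫.primeCompl (ssl_locSub F0 𝔫) 𝔮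
  have h𝔮₀𝔫 : 𝔮₀ ≤ 𝔫 := by
    intro b hb
    by_contra hb𝔫
    have hu : IsUnit (algebraMap B (ssl_locSub F0 𝔫) b) := s35l_loc_isUnit 𝔫 hb𝔫
    exact h𝔮.ne_top (Ideal.eq_top_of_isUnit_mem _ hb hu)
  have hϖB : algebraMap A0 B π ≠ 0 := by
    intro h0
    apply hϖ0
    have := congrArg (fun t : B => (t : F0)) h0
    simpa using this
  have hle : P1 ⊓ P2 ≤ 𝔮₀ := by
    rw [← hrad, Ideal.span_le, Set.singleton_subset_iff]
    exact hϖ𝔮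
  have hne : ∀ Q : Ideal B, algebraMap A0 B π ∈ Q → Q ≠ ⊥ := by
    intro Q hQ h0
    rw [h0, Ideal.mem_bot] at hQ
    exact hϖB hQ
  have hϖ12 : algebraMap A0 B π ∈ P1 ⊓ P2 := by
    rw [← hrad]; exact Ideal.mem_span_singleton_self _
  rcases (Ideal.IsPrime.inf_le inferInstance).1 hle with h | h
  · left
    have : P1 = 𝔮₀ := ssl_eq_of_le_of_ne_bot (hne P1 hϖ12.1) h1' h
    exact ⟨this ▸ h𝔮₀𝔫, by rw [this, hmap]⟩
  · right
    have : P2 = 𝔮₀ := ssl_eq_of_le_of_ne_bot (hne P2 hϖ12.2) h1' h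
    exact ⟨this ▸ h𝔮₀𝔫, by rw [this, hmap]⟩

end Vert

end Fermat.Agent.S35
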