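/-
Project S35, cell [L]-φ (helper10): THE ASSEMBLY AT A CLOSED POINT (prefix `s35l_`).

`B ⊆ F0` a chart with two vertical primes `P1, P2` (`ϖ B = P1 ⊓ P2`, incomparable), `𝔫 ∋ ϖ` a
maximal ideal, `R = B_𝔫`.  Given the NEAR-STEP OUTPUT `f = u₁ r₁ᵐ`, `u₁ ∈ R`, `r₁ ≡ 1` modulo
`ϖ B_{P_i}` for the vertical primes `P_i ≤ 𝔫`, and `f ≡ 1` modulo `ϖ O`:

  `s35l_assemble` : `f = (1 + ϖ y) rᵐ` with `s y ∈ B` for some `s ∉ 𝔫` and `r - 1 ∈ ϖ O`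

(the vertical prime NOT through `𝔫`, if any, is handled by weak approximation `s35l_far_fix`).
-/
import Mathlib
import Fermat.Agent.S35.LocalPhi.Gauss2
import Fermat.Agent.S35.LocalPhi.Far
import Fermat.Agent.S35.LocalPhi.Transfer

set_option autoImplicit false
set_option linter.unusedSectionVars false
set_option linter.style.haveILetI false

namespace Fermat.Agent.S35

open Fermat.Agent.SS

universe v

section PiO

variable {F : Type*} [Field F] {R : Subring F} {ϖ : F}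

/-- `a ≡ 1`, `b ≡ 1` modulo `ϖ O` ⟹ `a / bᵐ ≡ 1`. -/
theorem s35l_piO_div (hϖ : ϖ ∈ R) (hnu : ϖ⁻¹ ∉ R) {a b : F} (hb0 : b ≠ 0)
    (ha : a - 1 ∈ sfc_piO R ϖ) (hb : b - 1 ∈ sfc_piO R ϖ) (m : ℕ) :
    a / b ^ m - 1 ∈ sfc_piO R ϖ := by
  have hbO : b ∈ sfc_O R ϖ := by
    have : b = 1 + (b - 1) := by ring
    rw [this]
    exact add_mem (one_mem _) (sfc_piO_subset hϖ hb)
  have hbm : b ^ m - 1 ∈ sfc_piO R ϖ := by
    rw [← geom_sum_mul]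
    exact sfc_piO_mul_left (sum_mem fun i _ => pow_mem hbO i) hb
  obtain ⟨y, hy, hby⟩ := hbm
  have hbm' : b ^ m = 1 + ϖ * y := by rw [← hby]; ring
  have hinv : (b ^ m)⁻¹ ∈ sfc_O R ϖ := by rw [hbm']; exact sfc_jac hϖ hnu hy
  have h1 : a / b ^ m - 1 = (b ^ m)⁻¹ * ((a - 1) - (b ^ m - 1)) := by
    have := pow_ne_zero m hb0
    field_simp
    ring
  rw [h1]
  exact sfc_piO_mul_left hinv (sfc_piO_sub ha ⟨y, hy, hby⟩)

end PiO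

section Assemble

variable {A0 : Type*} [CommRing A0] {F0 : Type v} [Field F0] [Algebra A0 F0]
variable {B : Subalgebra A0 F0} [IsFractionRing B F0] [IsNoetherianRing B] [IsIntegrallyClosed B]
variable {π : A0} (𝔫 : Ideal B) [h𝔫 : 𝔫.IsMaximal]

/-- `ϖ⁻¹ ∉ B` when `ϖ` lies in a proper ideal. -/
theorem s35l_hnu (hϖ0 : algebraMap A0 F0 π ≠ 0) (hπ𝔫 : algebraMap A0 B π ∈ 𝔫) :
    (algebraMap A0 F0 π)⁻¹ ∉ B := by
  intro h
  have h1 : algebraMap A0 B π * ⟨_, h⟩ = 1 := Subtype.ext (mul_inv_cancel₀ hϖ0)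
  have : (1 : B) ∈ 𝔫 := h1 ▸ 𝔫.mul_mem_right _ hπ𝔫
  exact h𝔫.ne_top ((Ideal.eq_top_iff_one _).2 this)

/-- one vertical prime `Q ≤ 𝔫` is near; the other one `Q'` is near or far. -/
theorem s35l_assemble_aux (hϖ0 : algebraMap A0 F0 π ≠ 0) (hπ𝔫 : algebraMap A0 B π ∈ 𝔫)
    {Q Q' : Ideal B} [hQ : Q.IsPrime] [hQ' : Q'.IsPrime]
    (hr : Ideal.span {algebraMap A0 B π} = Q ⊓ Q') (hQQ' : ¬ Q ≤ Q')
    (hQ𝔫 : Q ≤ 𝔫) {r₁ : F0} (hr₁ : r₁ ≠ 0)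
    (hnear : ssl_MemAt F0 Q ((r₁ - 1) / algebraMap A0 F0 π))
    (hnear' : Q' ≤ 𝔫 → ssl_MemAt F0 Q' ((r₁ - 1) / algebraMap A0 F0 π)) :
    ∃ ω : F0, ω ∈ ssl_locSub F0 𝔫 ∧ 1 + algebraMap A0 F0 π * ω ≠ 0 ∧
      ssl_MemAt F0 Q ((r₁ / (1 + algebraMap A0 F0 π * ω) - 1) / algebraMap A0 F0 π) ∧
      ssl_MemAt F0 Q' ((r₁ / (1 + algebraMap A0 F0 π * ω) - 1) / algebraMap A0 F0 π) := by
  haveI : 𝔫.IsPrime := h𝔫.isPrime
  by_cases hQ'𝔫 : Q' ≤ 𝔫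
  · refine ⟨0, zero_mem _, by simp, ?_, ?_⟩
    · simpa using hnear
    · simpa using hnear' hQ'𝔫
  · -- `Q'` is far
    obtain ⟨p, hpQ', hp𝔫⟩ : ∃ p ∈ Q', 1 - p ∈ 𝔫 := by
      have htop : Q' ⊔ 𝔫 = ⊤ := by
        by_contra hne
        have := h𝔫.eq_of_le hne le_sup_right
        exact hQ'𝔫 (this ▸ le_sup_left)
      have h1 : (1 : B) ∈ Q' ⊔ 𝔫 := by rw [htop]; trivial
      obtain ⟨p, hp, n, hn, hpn⟩ := Submodule.mem_sup.1 h1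
      exact ⟨p, hp, by rw [← hpn, add_sub_cancel_left]; exact hn⟩
    have hr' : Ideal.span {algebraMap A0 B π} = Q' ⊓ Q := by rw [hr, inf_comm]
    have hϖQ' : algebraMap A0 B π ∈ Q' := by
      have : algebraMap A0 B π ∈ Ideal.span {algebraMap A0 B π} := Ideal.mem_span_singleton_self _
      rw [hr'] at this
      exact this.1
    obtain ⟨ω, hωR, hw0, hfar⟩ := s35l_far_fix Q' hϖ0 hϖQ' (s35l_vert_gen hr' hQQ')
      (fun z hz => s35l_vert_zpow hϖ0 hr' hQQ' hz) 𝔫 hpQ' hp𝔫 hr₁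
    refine ⟨ω, hωR, hw0, ?_, hfar⟩
    -- the near prime is not disturbed
    obtain ⟨b, c, hc, hωc⟩ := (ssl_mem_locSub 𝔫 _).1 hωR
    have hωc : ω * (c : F0) = (b : F0) := hωc
    have hc0 : (c : F0) ≠ 0 := by
      intro h0
      apply hc
      have : c = 0 := Subtype.ext h0
      rw [this]; exact 𝔫.zero_mem
    have hcb : c + algebraMap A0 B π * b ∉ Q := by
      intro hm
      apply hc
      have := 𝔫.sub_mem (hQ𝔫 hm) (𝔫.mul_mem_right b hπ𝔫)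
      rwa [add_sub_cancel_right] at this
    have hw : 1 + algebraMap A0 F0 π * ω =
        (((c + algebraMap A0 B π * b : B) : B) : F0) / (c : F0) := by
      push_cast
      rw [← hωc]
      field_simp
    have h2 : (r₁ / (1 + algebraMap A0 F0 π * ω) - 1) / algebraMap A0 F0 π =
        ((r₁ - 1) / algebraMap A0 F0 π - ω) * ((c : F0) /
          (((c + algebraMap A0 B π * b : B) : B) : F0)) := by
      have h3 : (((c + algebraMap A0 B π * b : B) : B) : F0) ≠ 0 := by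
        rw [hw] at hw0
        exact fun h0 => hw0 (by rw [h0, zero_div])
      rw [hw]
      field_simp
      push_cast at h3 ⊢
      rw [← hωc]
      ring
    rw [h2]
    refine ssl_memAt_mul Q ?_ (s35l_memAt_div Q hcb)
    have h4 : (r₁ - 1) / algebraMap A0 F0 π - ω = (r₁ - 1) / algebraMap A0 F0 π + (-ω) := by ring
    rw [h4]
    exact ssl_memAt_add Q hnear (s35l_memAt_of_mem_loc 𝔫 Q hQ𝔫 (neg_mem hωR))

variable {P1 P2 : Ideal B} [hP1 : P1.IsPrime] [hP2 : P2.IsPrime]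

/-- **THE ASSEMBLY.** -/
theorem s35l_assemble (hϖ0 : algebraMap A0 F0 π ≠ 0) (hπ𝔫 : algebraMap A0 B π ∈ 𝔫)
    (hrad : Ideal.span {algebraMap A0 B π} = P1 ⊓ P2) (h12 : ¬ P1 ≤ P2) (h21 : ¬ P2 ≤ P1)
    (m : ℕ) {f u₁ r₁ : F0} (hr₁ : r₁ ≠ 0)
    (h4a : f - 1 ∈ sfc_piO B.toSubring (algebraMap A0 F0 π))
    (hu₁ : u₁ ∈ ssl_locSub F0 𝔫) (hf : f = u₁ * r₁ ^ m)
    (hnear1 : P1 ≤ 𝔫 → ssl_MemAt F0 P1 ((r₁ - 1) / algebraMap A0 F0 π))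
    (hnear2 : P2 ≤ 𝔫 → ssl_MemAt F0 P2 ((r₁ - 1) / algebraMap A0 F0 π)) :
    ∃ (r y : F0) (s : B), s ∉ 𝔫 ∧ (s : F0) * y ∈ B ∧
      f = (1 + algebraMap A0 F0 π * y) * r ^ m ∧
      r - 1 ∈ sfc_piO B.toSubring (algebraMap A0 F0 π) := by
  haveI : 𝔫.IsPrime := h𝔫.isPrime
  have hϖB : algebraMap A0 F0 π ∈ B.toSubring := B.algebraMap_mem π
  have hnu := s35l_hnu 𝔫 hϖ0 hπ𝔫
  -- at least one vertical prime is near
  have hone : P1 ≤ 𝔫 ∨ P2 ≤ 𝔫 := by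
    have : P1 ⊓ P2 ≤ 𝔫 := by
      rw [← hrad, Ideal.span_le, Set.singleton_subset_iff]; exact hπ𝔫
    exact (Ideal.IsPrime.inf_le inferInstance).1 this
  obtain ⟨ω, hωR, hw0, hm1, hm2⟩ : ∃ ω : F0, ω ∈ ssl_locSub F0 𝔫 ∧
      1 + algebraMap A0 F0 π * ω ≠ 0 ∧
      ssl_MemAt F0 P1 ((r₁ / (1 + algebraMap A0 F0 π * ω) - 1) / algebraMap A0 F0 π) ∧
      ssl_MemAt F0 P2 ((r₁ / (1 + algebraMap A0 F0 π * ω) - 1) / algebraMap A0 F0 π) := by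
    rcases hone with h | h
    · exact s35l_assemble_aux 𝔫 hϖ0 hπ𝔫 hrad h12 h hr₁ (hnear1 h) hnear2
    · obtain ⟨ω, h1, h2, h3, h4⟩ := s35l_assemble_aux 𝔫 hϖ0 hπ𝔫
        (show Ideal.span {algebraMap A0 B π} = P2 ⊓ P1 by rw [hrad, inf_comm]) h21 h hr₁
        (hnear2 h) hnear1
      exact ⟨ω, h1, h2, h4, h3⟩
  set w : F0 := 1 + algebraMap A0 F0 π * ω with hw
  have hwR : w ∈ ssl_locSub F0 𝔫 :=
    add_mem (one_mem _) (mul_mem ((ssl_locSub F0 𝔫).algebraMap_mem (algebraMap A0 B π)) hωR)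
  set r : F0 := r₁ / w with hr
  have hr0 : r ≠ 0 := div_ne_zero hr₁ hw0
  have hrPO : r - 1 ∈ sfc_piO B.toSubring (algebraMap A0 F0 π) :=
    (s35l_mem_piO_iff hϖ0 hrad h12 h21).2 ⟨hm1, hm2⟩
  -- `u₁ wᵐ - 1 ∈ ϖ O ∩ R`
  have hfr : f / r ^ m = u₁ * w ^ m := by
    rw [hf, hr, div_pow]
    have := pow_ne_zero m hr₁
    have := pow_ne_zero m hw0
    field_simp
  have hPO : u₁ * w ^ m - 1 ∈ sfc_piO B.toSubring (algebraMap A0 F0 π) := by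
    rw [← hfr]
    exact s35l_piO_div hϖB hnu hr0 h4a hrPO m
  have hR : u₁ * w ^ m - 1 ∈ ssl_locSub F0 𝔫 :=
    sub_mem (mul_mem hu₁ (pow_mem hwR m)) (one_mem _)
  have hy := s35l_piO_inter_loc hϖ0 𝔫 hPO hR
  obtain ⟨a, s, hs, hys⟩ := (ssl_mem_locSub 𝔫 _).1 hy
  have hys : (u₁ * w ^ m - 1) / algebraMap A0 F0 π * (s : F0) = (a : F0) := hys
  refine ⟨r, (u₁ * w ^ m - 1) / algebraMap A0 F0 π, s, hs, ?_, ?_, hrPO⟩
  · rw [mul_comm, hys]; exact a.2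
  · rw [mul_div_cancel₀ _ hϖ0, add_sub_cancel, ← hfr]
    have := pow_ne_zero m hr0
    field_simp

end Assemble

end Fermat.Agent.S35
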