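/-
Project S35, cell [L]-φ (helper10): DECOMPOSITION `g = ε eᵐ` IN A FACTORIAL LOCAL RING
(prefix `s35l_`).

`R` a noetherian integrally closed factorial domain with fraction field `F`, `ϖ ∈ R`.  Suppose the
primes of height one containing `ϖ` ("vertical") are `(p₁)` and `(p₂)` for prime elements
`p₁, p₂ ∣ ϖ` (smooth point: `p₁ = p₂ = ϖ`; regular node: `p₁ = u`, `p₂ = v`).  If `g ∈ Fˣ` is a unit
at the vertical primes and `m ∣ ord_𝔮 g` at every horizontal prime `𝔮` (`hdiv`), then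
`g = ε eᵐ` with `ε ∈ Rˣ` and `e` a unit at the vertical primes.
-/
import Mathlib
import Fermat.Agent.SS.Local.Smooth

set_option autoImplicit false
set_option linter.unusedSectionVars false
set_option linter.style.haveILetI false

namespace Fermat.Agent.S35

open Fermat.Agent.SS Fermat.Agent.JT3 IsLocalRing

section Strip

variable {R : Type*} [CommRing R] [IsDomain R] [IsNoetherianRing R] [IsIntegrallyClosed R]
  {F : Type*} [Field F] [Algebra R F] [IsFractionRing R F]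

omit [IsIntegrallyClosed R] in
/-- the ideal generated by a prime element has height one (Krull). -/
theorem s35l_height_span {p : R} (hp : Prime p) : (Ideal.span {p} : Ideal R).height = 1 := by
  haveI hpp : (Ideal.span {p} : Ideal R).IsPrime := (Ideal.span_singleton_prime hp.ne_zero).2 hp
  apply le_antisymm
  · exact Ideal.height_le_one_of_isPrincipal_of_mem_minimalPrimes (Ideal.span {p}) (Ideal.span {p})
      ⟨⟨hpp, le_refl _⟩, fun q hq _ => hq.2⟩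
  · rw [Order.one_le_iff_pos, pos_iff_ne_zero, Ne, Ideal.height_eq_zero_iff_eq_bot,
      Ideal.span_singleton_eq_bot]
    exact hp.ne_zero

/-- **strip the `p`-part**: `e₀ / p ^ k` is a unit at `(p)` for a suitable `k`. -/
theorem s35l_strip {p : R} (hp : Prime p) {e₀ : F} (he₀ : e₀ ≠ 0) :
    ∃ k : ℤ, ssl_UnitAt F (Ideal.span {p}) (e₀ / algebraMap R F p ^ k) := by
  haveI hpp : (Ideal.span {p} : Ideal R).IsPrime := (Ideal.span_singleton_prime hp.ne_zero).2 hp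
  refine ssl_exists_zpow (F := F) (Ideal.span {p}) (s35l_height_span hp)
    (Ideal.mem_span_singleton_self p) (fun z hz => ⟨1, ?_, ?_⟩) he₀
  · intro h1
    exact hpp.ne_top ((Ideal.eq_top_iff_one _).2 h1)
  · rw [one_mul]; exact Ideal.mem_span_singleton.1 hz

omit [IsNoetherianRing R] [IsIntegrallyClosed R] in
/-- a prime element is a unit at every prime not containing it. -/
theorem s35l_unitAt_zpow_of_not_mem {p : R} {𝔮 : Ideal R} [𝔮.IsPrime] (hp𝔮 : p ∉ 𝔮) (k : ℤ) :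
    ssl_UnitAt F 𝔮 (algebraMap R F p ^ k) :=
  ssl_unitAt_zpow 𝔮 (ssl_unitAt_algebraMap 𝔮 hp𝔮) k

end Strip

section Decomp

variable {R : Type*} [CommRing R] [IsDomain R] [IsNoetherianRing R] [IsIntegrallyClosed R]
  [UniqueFactorizationMonoid R]
  {F : Type*} [Field F] [Algebra R F] [IsFractionRing R F]

/-- **the decomposition `g = ε eᵐ`** with `e` a unit at the two vertical primes `(p₁)`, `(p₂)`
(which may coincide). -/
theorem s35l_decomp {ϖ p₁ p₂ : R} (hp₁ : Prime p₁) (hp₂ : Prime p₂) (hd₁ : p₁ ∣ ϖ) (hd₂ : p₂ ∣ ϖ)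
    (hvert : ∀ 𝔮 : Ideal R, 𝔮.IsPrime → 𝔮.height = 1 → ϖ ∈ 𝔮 →
      𝔮 = Ideal.span {p₁} ∨ 𝔮 = Ideal.span {p₂})
    (hcases : Ideal.span {p₁} = (Ideal.span {p₂} : Ideal R) ∨ (p₁ ∉ Ideal.span {p₂} ∧
      p₂ ∉ (Ideal.span {p₁} : Ideal R)))
    (m : ℕ) {g : F} (hg : g ≠ 0)
    (hg₁ : ssl_UnitAt F (Ideal.span {p₁}) g) (hg₂ : ssl_UnitAt F (Ideal.span {p₂}) g)
    (hdiv : ∀ 𝔮 : Ideal R, ssl_Horiz ϖ 𝔮 → ∃ G : F, G ≠ 0 ∧ ssl_UnitAt F 𝔮 (g / G ^ m)) :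
    ∃ (ε : Rˣ) (e : F), e ≠ 0 ∧ ssl_UnitAt F (Ideal.span {p₁}) e ∧
      ssl_UnitAt F (Ideal.span {p₂}) e ∧ g = algebraMap R F (ε : R) * e ^ m := by
  haveI hpp₁ : (Ideal.span {p₁} : Ideal R).IsPrime :=
    (Ideal.span_singleton_prime hp₁.ne_zero).2 hp₁
  haveI hpp₂ : (Ideal.span {p₂} : Ideal R).IsPrime :=
    (Ideal.span_singleton_prime hp₂.ne_zero).2 hp₂
  obtain ⟨e₀, he₀, hunit⟩ : ssl_PowModVert F ϖ m g :=
    ssl_powModVert_of_locEq m hg hdiv fun _ h𝔮 _ => ssl_locEq_of_ufd h𝔮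
  have hP₁ : algebraMap R F p₁ ≠ 0 := ssl_algebraMap_ne_zero hp₁.ne_zero
  have hP₂ : algebraMap R F p₂ ≠ 0 := ssl_algebraMap_ne_zero hp₂.ne_zero
  -- horizontal primes contain neither `p₁` nor `p₂`
  have hhor : ∀ 𝔮 : Ideal R, ssl_Horiz ϖ 𝔮 → p₁ ∉ 𝔮 ∧ p₂ ∉ 𝔮 := fun 𝔮 h𝔮 =>
    ⟨fun h => h𝔮.2.2 (Ideal.mem_of_dvd 𝔮 hd₁ h), fun h => h𝔮.2.2 (Ideal.mem_of_dvd 𝔮 hd₂ h)⟩
  obtain ⟨k₁, hk₁⟩ := s35l_strip (F := F) hp₁ he₀
  -- the candidate `e` and the conclusion from its properties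
  have key : ∀ e : F, e ≠ 0 → ssl_UnitAt F (Ideal.span {p₁}) e → ssl_UnitAt F (Ideal.span {p₂}) e →
      (∀ 𝔮 : Ideal R, ssl_Horiz ϖ 𝔮 → ssl_UnitAt F 𝔮 (e₀ / e)) →
      ∃ (ε : Rˣ) (e : F), e ≠ 0 ∧ ssl_UnitAt F (Ideal.span {p₁}) e ∧
        ssl_UnitAt F (Ideal.span {p₂}) e ∧ g = algebraMap R F (ε : R) * e ^ m := by
    intro e he h1 h2 hh
    have hem : e ^ m ≠ 0 := pow_ne_zero m he
    have hz0 : g / e ^ m ≠ 0 := div_ne_zero hg hem
    obtain ⟨ε, hε⟩ := ssl_krull_unit (F := F) hz0 (fun 𝔮 h𝔮 h1' => by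
      haveI := h𝔮
      by_cases hϖ : ϖ ∈ 𝔮
      · rcases hvert 𝔮 h𝔮 h1' hϖ with rfl | rfl
        · exact ssl_unitAt_div _ hg₁ (ssl_unitAt_pow _ h1 m)
        · exact ssl_unitAt_div _ hg₂ (ssl_unitAt_pow _ h2 m)
      · have hH : ssl_Horiz ϖ 𝔮 := ⟨h𝔮, h1', hϖ⟩
        have h3 : g / e ^ m = (g / e₀ ^ m) * (e₀ / e) ^ m := by
          have h4 : e₀ ^ m ≠ 0 := pow_ne_zero m he₀
          rw [div_pow]
          field_simp
        rw [h3]
        exact ssl_unitAt_mul 𝔮 (hunit 𝔮 hH) (ssl_unitAt_pow 𝔮 (hh 𝔮 hH) m))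
    refine ⟨ε, e, he, h1, h2, ?_⟩
    rw [hε]
    field_simp
  rcases hcases with heq | ⟨hne₁, hne₂⟩
  · -- one vertical prime
    refine key (e₀ / algebraMap R F p₁ ^ k₁) (div_ne_zero he₀ (zpow_ne_zero _ hP₁)) hk₁
      (heq ▸ hk₁) fun 𝔮 h𝔮 => ?_
    haveI := h𝔮.1
    have h3 : e₀ / (e₀ / algebraMap R F p₁ ^ k₁) = algebraMap R F p₁ ^ k₁ := by
      have := zpow_ne_zero k₁ hP₁
      field_simp
    rw [h3]
    exact s35l_unitAt_zpow_of_not_mem (hhor 𝔮 h𝔮).1 k₁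
  · -- two distinct vertical primes
    obtain ⟨k₂, hk₂⟩ := s35l_strip (F := F) hp₂ he₀
    have hz₁ := zpow_ne_zero k₁ hP₁
    have hz₂ := zpow_ne_zero k₂ hP₂
    refine key (e₀ / (algebraMap R F p₁ ^ k₁ * algebraMap R F p₂ ^ k₂))
      (div_ne_zero he₀ (mul_ne_zero hz₁ hz₂)) ?_ ?_ fun 𝔮 h𝔮 => ?_
    · have h3 : e₀ / (algebraMap R F p₁ ^ k₁ * algebraMap R F p₂ ^ k₂) =
          (e₀ / algebraMap R F p₁ ^ k₁) / algebraMap R F p₂ ^ k₂ := by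
        field_simp
      rw [h3]
      exact ssl_unitAt_div _ hk₁ (s35l_unitAt_zpow_of_not_mem hne₂ k₂)
    · have h3 : e₀ / (algebraMap R F p₁ ^ k₁ * algebraMap R F p₂ ^ k₂) =
          (e₀ / algebraMap R F p₂ ^ k₂) / algebraMap R F p₁ ^ k₁ := by
        field_simp
      rw [h3]
      exact ssl_unitAt_div _ hk₂ (s35l_unitAt_zpow_of_not_mem hne₁ k₁)
    · haveI := h𝔮.1
      have h3 : e₀ / (e₀ / (algebraMap R F p₁ ^ k₁ * algebraMap R F p₂ ^ k₂)) =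
          algebraMap R F p₁ ^ k₁ * algebraMap R F p₂ ^ k₂ := by
        field_simp
      rw [h3]
      exact ssl_unitAt_mul 𝔮 (s35l_unitAt_zpow_of_not_mem (hhor 𝔮 h𝔮).1 k₁)
        (s35l_unitAt_zpow_of_not_mem (hhor 𝔮 h𝔮).2 k₂)

end Decomp

end Fermat.Agent.S35
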