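/-
Project S35, cell [L]-φ (helper10): THE NEAR STEP (prefix `s35l_`).

`R` a noetherian local domain with fraction field `F`.

* smooth point (`𝔪 = (ϖ, t)`, `ϖ` prime): `R / ϖ` is integrally closed, so if `r₀ ∈ (R_(ϖ))ˣ` and
  `r₀ᵐ u₀ ≡ 1` modulo `ϖ R_(ϖ)` for a unit `u₀` of `R` then `r₀ ≡ s` modulo `ϖ R_(ϖ)` for a unit
  `s` of `R` (`s35l_near_smooth`).
* regular node (`𝔪 = (u, v)`, `u`, `v` prime), `τ` an automorphism preserving `(u)` and `(v)` and
  inducing `z ↦ z^Q` on the residue field: if `e` is a unit at `(u)` and `(v)` and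
  `(τ e / e^Q)ᵐ u₀ ≡ 1` on both branches then `e` is a unit on each branch (valuations on the
  branch `R / u`, a discrete valuation ring, using `Q ≥ 2`), the two branch values of `τ e / e^Q`
  at the node are `1`, hence glue: `τ e / e^Q ≡ s` modulo `u R_(u)` and `v R_(v)` for a unit `s` of
  `R` (`s35l_near_node`).
-/
import Mathlib
import Fermat.Agent.JT3.Algebra.NormalFree
import Fermat.Agent.SS.Local.Height1

set_option autoImplicit false
set_option linter.unusedSectionVars false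
set_option linter.style.haveILetI false

namespace Fermat.Agent.S35

open Fermat.Agent.SS Fermat.Agent.JT3 IsLocalRing

section Lift

variable {R : Type*} [CommRing R] [IsLocalRing R]

/-- a lift of a unit of `R / I` (`I` proper) is a unit of the local ring `R`. -/
theorem s35l_isUnit_of_mk {I : Ideal R} (hI : I ≠ ⊤) {c : R}
    (hc : IsUnit (Ideal.Quotient.mk I c)) : IsUnit c := by
  obtain ⟨d', hd'⟩ := hc.exists_right_inv
  obtain ⟨d, rfl⟩ := Ideal.Quotient.mk_surjective d'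
  have h1 : c * d - 1 ∈ I := by
    rw [← Ideal.Quotient.eq_zero_iff_mem, map_sub, map_mul, hd', map_one, sub_self]
  have h2 : c * d - 1 ∈ maximalIdeal R := IsLocalRing.le_maximalIdeal hI h1
  have h3 : IsUnit (c * d) := by
    by_contra hnu
    have h4 : c * d ∈ maximalIdeal R := (IsLocalRing.mem_maximalIdeal _).2 hnu
    have h5 : (1 : R) ∈ maximalIdeal R := by
      have h6 := (maximalIdeal R).sub_mem h4 h2
      rwa [sub_sub_cancel] at h6
    exact (Ideal.ne_top_iff_one _).1 (IsLocalRing.maximalIdeal.isMaximal R).ne_top h5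
  exact isUnit_of_mul_isUnit_left h3

end Lift

section Smooth

variable {R : Type*} [CommRing R] [IsDomain R] [IsLocalRing R] [IsNoetherianRing R]
  {F : Type*} [Field F] [Algebra R F] [IsFractionRing R F]

/-- **the near step at a smooth point.** -/
theorem s35l_near_smooth {ϖ t : R} (hϖ : Prime ϖ) (hmax : maximalIdeal R = Ideal.span {ϖ, t})
    {m : ℕ} (hm : m ≠ 0) {r₀ : F} (u₀ : Rˣ)
    (hr₀ : ssl_UnitAt F (Ideal.span {ϖ}) r₀)
    (hcong : ssl_MemAt F (Ideal.span {ϖ})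
      ((r₀ ^ m * algebraMap R F (u₀ : R) - 1) / algebraMap R F ϖ)) :
    ∃ s : Rˣ, ssl_MemAt F (Ideal.span {ϖ}) ((r₀ - algebraMap R F (s : R)) / algebraMap R F ϖ) := by
  haveI hpp : (Ideal.span {ϖ} : Ideal R).IsPrime := (Ideal.span_singleton_prime hϖ.ne_zero).2 hϖ
  have hϖF : algebraMap R F ϖ ≠ 0 := ssl_algebraMap_ne_zero hϖ.ne_zero
  obtain ⟨a, s', ha, hs', h⟩ := hr₀
  obtain ⟨c, d, hd, h'⟩ := hcong
  have hs'0 : algebraMap R F s' ≠ 0 :=
    ssl_algebraMap_ne_zero fun h0 => hs' (h0 ▸ (Ideal.span {ϖ}).zero_mem)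
  -- the congruence in `R`
  have hR : d * (a ^ m * (u₀ : R) - s' ^ m) = ϖ * (c * s' ^ m) := by
    apply IsFractionRing.injective R F
    simp only [map_mul, map_sub, map_pow]
    rw [← h, ← h']
    field_simp
    ring
  have hdvd : ϖ ∣ a ^ m * (u₀ : R) - s' ^ m := by
    have h1 : ϖ ∣ d * (a ^ m * (u₀ : R) - s' ^ m) := ⟨_, hR⟩
    rcases hϖ.dvd_or_dvd h1 with h2 | h2
    · exact absurd (Ideal.mem_span_singleton.2 h2) hd
    · exact h2
  -- pass to `R / ϖ`
  haveI : IsDomain (R ⧸ Ideal.span {ϖ}) := Ideal.Quotient.isDomain _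
  haveI : IsPrincipalIdealRing (R ⧸ Ideal.span {ϖ}) := nfr_isPrincipalIdealRing_quot hϖ hmax
  set mk := Ideal.Quotient.mk (Ideal.span {ϖ}) with hmk
  have hmk0 : ∀ z : R, mk z = 0 ↔ ϖ ∣ z := fun z => by
    rw [hmk, Ideal.Quotient.eq_zero_iff_mem, Ideal.mem_span_singleton]
  have heq : mk a ^ m * mk (u₀ : R) = mk s' ^ m := by
    have := (hmk0 _).2 hdvd
    rw [map_sub, map_mul, map_pow, map_pow, sub_eq_zero] at this
    exact this
  have hu₀ : mk (u₀ : R) * mk ((u₀⁻¹ : Rˣ) : R) = 1 := by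
    rw [← map_mul, ← Units.val_mul, mul_inv_cancel, Units.val_one, map_one]
  have hdvd2 : mk s' ^ m ∣ mk a ^ m := by
    refine ⟨mk ((u₀⁻¹ : Rˣ) : R), ?_⟩
    rw [← heq, mul_assoc, hu₀, mul_one]
  obtain ⟨c', hc'⟩ := (IsIntegrallyClosed.pow_dvd_pow_iff hm).1 hdvd2
  obtain ⟨c₁, rfl⟩ := Ideal.Quotient.mk_surjective c'
  have hs'mk : mk s' ≠ 0 := fun h0 =>
    hs' (Ideal.mem_span_singleton.2 ((hmk0 _).1 h0))
  have hc₁ : mk c₁ ^ m * mk (u₀ : R) = 1 := by
    have h1 : mk s' ^ m * (mk c₁ ^ m * mk (u₀ : R)) = mk s' ^ m * 1 := by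
      rw [mul_one, ← mul_assoc, ← mul_pow]
      show (mk s' * (Ideal.Quotient.mk _ c₁)) ^ m * mk (u₀ : R) = mk s' ^ m
      rw [← hc', heq]
    exact mul_left_cancel₀ (pow_ne_zero m hs'mk) h1
  have hc₁u : IsUnit c₁ := by
    apply s35l_isUnit_of_mk (I := Ideal.span {ϖ}) hpp.ne_top
    have : IsUnit (mk c₁ ^ m) := IsUnit.of_mul_eq_one _ hc₁
    exact (isUnit_pow_iff hm).1 this
  obtain ⟨w, hw⟩ : ϖ ∣ a - s' * c₁ := by
    rw [← hmk0, map_sub, map_mul, sub_eq_zero]
    exact hc'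
  refine ⟨hc₁u.unit, w, s', hs', ?_⟩
  rw [IsUnit.unit_spec]
  have h2 : algebraMap R F a - algebraMap R F s' * algebraMap R F c₁ =
      algebraMap R F ϖ * algebraMap R F w := by
    rw [← map_mul, ← map_mul, ← map_sub, hw]
  have h3 : (r₀ - algebraMap R F c₁) * algebraMap R F s' = algebraMap R F ϖ * algebraMap R F w := by
    rw [← h2, ← h]; ring
  rw [div_mul_eq_mul_div, h3]
  field_simp

end Smooth

section DVR

variable {S : Type*} [CommRing S] [IsDomain S] [IsDiscreteValuationRing S]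

/-- a ring automorphism of a discrete valuation ring preserves the valuation. -/
theorem s35l_addVal_equiv (σ : S ≃+* S) (x : S) :
    IsDiscreteValuationRing.addVal S (σ x) = IsDiscreteValuationRing.addVal S x := by
  by_cases hx : x = 0
  · rw [hx, map_zero]
  obtain ⟨ϖ, hϖ⟩ := IsDiscreteValuationRing.exists_irreducible S
  obtain ⟨n, u, hu⟩ := IsDiscreteValuationRing.eq_unit_mul_pow_irreducible hx hϖ
  have hσϖ : Irreducible (σ ϖ) := (MulEquiv.irreducible_iff (σ : S ≃* S)).2 hϖ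
  rw [IsDiscreteValuationRing.addVal_def x u hϖ n hu,
    IsDiscreteValuationRing.addVal_def (σ x) (Units.map (σ : S →* S) u) hσϖ n
      (by rw [hu, map_mul, map_pow]; rfl)]

end DVR

section Node

variable {R : Type*} [CommRing R] [IsDomain R] [IsLocalRing R] [IsNoetherianRing R]
  {F : Type*} [Field F] [Algebra R F] [IsFractionRing R F]

/-- the branch `R / u` at a regular node is a discrete valuation ring. -/
theorem s35l_quot_isDVR {u v : R} (hu : Prime u) (hmax : maximalIdeal R = Ideal.span {u, v})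
    (hv : v ∉ Ideal.span {u}) :
    haveI : IsDomain (R ⧸ Ideal.span {u}) :=
      haveI := (Ideal.span_singleton_prime hu.ne_zero).2 hu
      Ideal.Quotient.isDomain _
    IsDiscreteValuationRing (R ⧸ Ideal.span {u}) := by
  haveI hpp : (Ideal.span {u} : Ideal R).IsPrime := (Ideal.span_singleton_prime hu.ne_zero).2 hu
  haveI : IsDomain (R ⧸ Ideal.span {u}) := Ideal.Quotient.isDomain _
  haveI : IsPrincipalIdealRing (R ⧸ Ideal.span {u}) := nfr_isPrincipalIdealRing_quot hu hmax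
  haveI : IsLocalRing (R ⧸ Ideal.span {u}) :=
    IsLocalRing.of_surjective' (Ideal.Quotient.mk _) Ideal.Quotient.mk_surjective
  refine { not_a_field' := ?_ }
  intro h0
  have hvm : v ∈ maximalIdeal R := by rw [hmax]; exact Ideal.subset_span (by simp)
  have h1 : Ideal.Quotient.mk (Ideal.span {u}) v ∈ maximalIdeal (R ⧸ Ideal.span {u}) := by
    rw [IsLocalRing.mem_maximalIdeal, mem_nonunits_iff]
    intro hunit
    exact (IsLocalRing.mem_maximalIdeal _).1 hvm (s35l_isUnit_of_mk hpp.ne_top hunit)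
  rw [h0, Ideal.mem_bot, Ideal.Quotient.eq_zero_iff_mem] at h1
  exact hv h1

/-- **the branch unit**: on the branch `R / u` the valuations of numerator and denominator of `e`
agree. -/
theorem s35l_branch_unit {u v : R} (hu : Prime u) (hmax : maximalIdeal R = Ideal.span {u, v})
    (hv : v ∉ Ideal.span {u}) (τR : R ≃+* R) (hτu : Ideal.span {τR u} = Ideal.span {u})
    {Q m : ℕ} (hQ : 2 ≤ Q) (hm : m ≠ 0) {a s' : R} (ha : a ∉ Ideal.span {u})
    (hs' : s' ∉ Ideal.span {u}) (u₀ : Rˣ)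
    (hcong : u ∣ (τR a * s' ^ Q) ^ m * (u₀ : R) - (τR s' * a ^ Q) ^ m) :
    ∃ c : Rˣ, u ∣ a - s' * (c : R) := by
  haveI hpp : (Ideal.span {u} : Ideal R).IsPrime := (Ideal.span_singleton_prime hu.ne_zero).2 hu
  haveI : IsDomain (R ⧸ Ideal.span {u}) := Ideal.Quotient.isDomain _
  haveI : IsDiscreteValuationRing (R ⧸ Ideal.span {u}) := s35l_quot_isDVR hu hmax hv
  set mk := Ideal.Quotient.mk (Ideal.span {u}) with hmk
  have hmk0 : ∀ z : R, mk z = 0 ↔ u ∣ z := fun z => by
    rw [hmk, Ideal.Quotient.eq_zero_iff_mem, Ideal.mem_span_singleton]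
  -- the induced automorphism of the branch
  have hmap : (Ideal.span {u} : Ideal R) = (Ideal.span {u}).map ((τR : R ≃+* R) : R →+* R) := by
    rw [Ideal.map_span, Set.image_singleton]
    exact hτu.symm
  set τb : (R ⧸ Ideal.span {u}) ≃+* (R ⧸ Ideal.span {u}) :=
    Ideal.quotientEquiv (Ideal.span {u}) (Ideal.span {u}) τR hmap with hτb
  have hτb_mk : ∀ z : R, τb (mk z) = mk (τR z) := fun z => rfl
  set ν := IsDiscreteValuationRing.addVal (R ⧸ Ideal.span {u}) with hν
  have heq : (τb (mk a) * mk s' ^ Q) ^ m * mk (u₀ : R) = (τb (mk s') * mk a ^ Q) ^ m := by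
    have := (hmk0 _).2 hcong
    rw [map_sub, sub_eq_zero] at this
    simpa [hτb_mk] using this
  have hνu₀ : ν (mk (u₀ : R)) = 0 := by
    have hunit : IsUnit (mk (u₀ : R)) := u₀.isUnit.map mk
    rw [hν, ← hunit.unit_spec]
    exact IsDiscreteValuationRing.addVal_eq_zero_of_unit hunit.unit
  have hval := congrArg ν heq
  have hamk : mk a ≠ 0 := fun h0 => ha (Ideal.mem_span_singleton.2 ((hmk0 _).1 h0))
  have hsmk : mk s' ≠ 0 := fun h0 => hs' (Ideal.mem_span_singleton.2 ((hmk0 _).1 h0))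
  obtain ⟨α, hα⟩ := ENat.ne_top_iff_exists.1
    (fun h => hamk (IsDiscreteValuationRing.addVal_eq_top_iff.1 h))
  obtain ⟨β, hβ⟩ := ENat.ne_top_iff_exists.1
    (fun h => hsmk (IsDiscreteValuationRing.addVal_eq_top_iff.1 h))
  rw [AddValuation.map_mul, AddValuation.map_pow, AddValuation.map_pow, AddValuation.map_mul,
    AddValuation.map_mul, AddValuation.map_pow, AddValuation.map_pow, hνu₀, add_zero,
    hν, s35l_addVal_equiv, s35l_addVal_equiv, ← hα, ← hβ] at hval
  have hnat : m * (α + Q * β) = m * (β + Q * α) := by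
    have h1 : ((m * (α + Q * β) : ℕ) : ℕ∞) = ((m * (β + Q * α) : ℕ) : ℕ∞) := by
      push_cast
      simpa [nsmul_eq_mul, mul_add] using hval
    exact_mod_cast h1
  have hαβ : α = β := by
    have h1 : α + Q * β = β + Q * α := Nat.eq_of_mul_eq_mul_left (Nat.pos_of_ne_zero hm) hnat
    obtain ⟨q, rfl⟩ : ∃ q, Q = q + 2 := ⟨Q - 2, by omega⟩
    have h2 : (q + 1) * β = (q + 1) * α := by nlinarith
    exact (Nat.eq_of_mul_eq_mul_left (Nat.succ_pos q) h2).symm
  have hassoc : Associated (mk s') (mk a) := by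
    rw [← IsDiscreteValuationRing.addVal_eq_iff_associated, ← hα, ← hβ, hαβ]
  obtain ⟨cu, hcu⟩ := hassoc
  obtain ⟨c₁, hc₁⟩ := Ideal.Quotient.mk_surjective (cu : R ⧸ Ideal.span {u})
  have hc₁u : IsUnit c₁ := by
    apply s35l_isUnit_of_mk (I := Ideal.span {u}) hpp.ne_top
    rw [hc₁]; exact cu.isUnit
  refine ⟨hc₁u.unit, ?_⟩
  rw [IsUnit.unit_spec, ← hmk0, map_sub, map_mul, sub_eq_zero, hmk, hc₁]
  exact hcu.symm

omit [IsLocalRing R] [IsNoetherianRing R] [IsDomain R] in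
/-- an automorphism preserving `(u)` preserves membership in `(u)`. -/
theorem s35l_equiv_mem_span {u : R} (τR : R ≃+* R) (hτu : Ideal.span {τR u} = Ideal.span {u})
    (z : R) : τR z ∈ (Ideal.span {u} : Ideal R) ↔ z ∈ (Ideal.span {u} : Ideal R) := by
  have h1 : τR z ∈ (Ideal.span {τR u} : Ideal R) ↔ z ∈ (Ideal.span {u} : Ideal R) := by
    rw [Ideal.mem_span_singleton, Ideal.mem_span_singleton]
    exact map_dvd_iff τR
  rw [← h1, hτu]

/-- **the branch lemma in `F`**: `τ e / e^Q ≡ τ c / c^Q` modulo `u R_(u)` for a unit `c` of `R`. -/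
theorem s35l_branch {u v : R} (hu : Prime u) (hmax : maximalIdeal R = Ideal.span {u, v})
    (hv : v ∉ Ideal.span {u}) (τ : F ≃+* F) (τR : R ≃+* R)
    (hcompat : ∀ r : R, τ (algebraMap R F r) = algebraMap R F (τR r))
    (hτu : Ideal.span {τR u} = Ideal.span {u})
    {Q m : ℕ} (hQ : 2 ≤ Q) (hm : m ≠ 0) {e : F} (he : ssl_UnitAt F (Ideal.span {u}) e) (u₀ : Rˣ)
    (hcong : ssl_MemAt F (Ideal.span {u})
      (((τ e / e ^ Q) ^ m * algebraMap R F (u₀ : R) - 1) / algebraMap R F u)) :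
    ∃ c : Rˣ, ssl_MemAt F (Ideal.span {u})
      ((τ e / e ^ Q - algebraMap R F (τR (c : R)) / algebraMap R F (c : R) ^ Q) /
        algebraMap R F u) := by
  haveI hpp : (Ideal.span {u} : Ideal R).IsPrime := (Ideal.span_singleton_prime hu.ne_zero).2 hu
  have huF : algebraMap R F u ≠ 0 := ssl_algebraMap_ne_zero hu.ne_zero
  obtain ⟨a, s', ha, hs', h⟩ := he
  obtain ⟨c', d, hd, h'⟩ := hcong
  have hne : ∀ z : R, z ∉ (Ideal.span {u} : Ideal R) → algebraMap R F z ≠ 0 := fun z hz =>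
    ssl_algebraMap_ne_zero fun h0 => hz (h0 ▸ (Ideal.span {u}).zero_mem)
  have hτa : τR a ∉ (Ideal.span {u} : Ideal R) := fun hm' =>
    ha ((s35l_equiv_mem_span τR hτu a).1 hm')
  have hτs' : τR s' ∉ (Ideal.span {u} : Ideal R) := fun hm' =>
    hs' ((s35l_equiv_mem_span τR hτu s').1 hm')
  have hs'0 := hne s' hs'
  have ha0 := hne a ha
  have hτs'0 := hne _ hτs'
  have hτa0 := hne _ hτa
  have he0 : e ≠ 0 := by
    rintro rfl
    rw [zero_mul] at h
    exact ha0 h.symm
  have hτ : τ e * algebraMap R F (τR s') = algebraMap R F (τR a) := by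
    rw [← hcompat, ← hcompat, ← map_mul, h]
  have hX : algebraMap R F (τR s') * algebraMap R F a ^ Q ≠ 0 :=
    mul_ne_zero hτs'0 (pow_ne_zero Q ha0)
  -- `τ e / e^Q = Y / X`
  have hr₀ : τ e / e ^ Q = (algebraMap R F (τR a) * algebraMap R F s' ^ Q) /
      (algebraMap R F (τR s') * algebraMap R F a ^ Q) := by
    rw [eq_div_iff hX, ← hτ, ← h, mul_pow]
    have := pow_ne_zero Q he0
    field_simp
  -- the congruence in `R`
  have hR : d * ((τR a * s' ^ Q) ^ m * (u₀ : R) - (τR s' * a ^ Q) ^ m) =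
      u * (c' * (τR s' * a ^ Q) ^ m) := by
    apply IsFractionRing.injective R F
    simp only [map_mul, map_sub, map_pow]
    have hkey : (τ e / e ^ Q) ^ m * (algebraMap R F (τR s') * algebraMap R F a ^ Q) ^ m =
        (algebraMap R F (τR a) * algebraMap R F s' ^ Q) ^ m := by
      rw [← mul_pow, hr₀, div_mul_cancel₀ _ hX]
    have h'' : ((τ e / e ^ Q) ^ m * algebraMap R F (u₀ : R) - 1) * algebraMap R F d =
        algebraMap R F u * algebraMap R F c' := by
      rw [← h']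
      field_simp
    linear_combination ((algebraMap R F (τR s') * algebraMap R F a ^ Q) ^ m) * h'' -
      (algebraMap R F d * algebraMap R F (u₀ : R)) * hkey
  have hdvd : u ∣ (τR a * s' ^ Q) ^ m * (u₀ : R) - (τR s' * a ^ Q) ^ m := by
    have h1 : u ∣ d * ((τR a * s' ^ Q) ^ m * (u₀ : R) - (τR s' * a ^ Q) ^ m) := ⟨_, hR⟩
    rcases hu.dvd_or_dvd h1 with h2 | h2
    · exact absurd (Ideal.mem_span_singleton.2 h2) hd
    · exact h2
  obtain ⟨c, w, hw⟩ := s35l_branch_unit hu hmax hv τR hτu hQ hm ha hs' u₀ hdvd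
  refine ⟨c, ?_⟩
  -- `u ∣ N`
  have huτu : u ∣ τR u := by
    have : τR u ∈ (Ideal.span {u} : Ideal R) := by
      rw [← hτu]; exact Ideal.mem_span_singleton_self _
    exact Ideal.mem_span_singleton.1 this
  have h1 : u ∣ τR a - τR s' * τR (c : R) := by
    have : τR a - τR s' * τR (c : R) = τR u * τR w := by
      rw [← map_mul, ← map_mul, ← map_sub, hw]
    rw [this]
    exact Dvd.dvd.mul_right huτu _
  have h2 : u ∣ a ^ Q - (s' * (c : R)) ^ Q :=
    dvd_trans ⟨w, hw⟩ (sub_dvd_pow_sub_pow a (s' * (c : R)) Q)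
  obtain ⟨w', hw'⟩ : u ∣ τR a * s' ^ Q * (c : R) ^ Q - τR (c : R) * τR s' * a ^ Q := by
    have : τR a * s' ^ Q * (c : R) ^ Q - τR (c : R) * τR s' * a ^ Q =
        (τR a - τR s' * τR (c : R)) * (s' ^ Q * (c : R) ^ Q) -
          τR (c : R) * τR s' * (a ^ Q - (s' * (c : R)) ^ Q) := by ring
    rw [this]
    exact dvd_sub (Dvd.dvd.mul_right h1 _) (Dvd.dvd.mul_left h2 _)
  have hcu : (c : R) ∉ (Ideal.span {u} : Ideal R) := fun hm' =>
    hpp.ne_top (Ideal.eq_top_of_isUnit_mem _ hm' c.isUnit)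
  have hc0 := hne _ hcu
  refine ⟨w', τR s' * a ^ Q * (c : R) ^ Q, ?_, ?_⟩
  · intro hm'
    rcases hpp.mem_or_mem hm' with h3 | h3
    · rcases hpp.mem_or_mem h3 with h4 | h4
      · exact hτs' h4
      · exact ha (hpp.mem_of_pow_mem Q h4)
    · exact hcu (hpp.mem_of_pow_mem Q h3)
  · have h3 : algebraMap R F (τR a) * algebraMap R F s' ^ Q * algebraMap R F (c : R) ^ Q -
        algebraMap R F (τR (c : R)) * algebraMap R F (τR s') * algebraMap R F a ^ Q =
        algebraMap R F u * algebraMap R F w' := by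
      have := congrArg (algebraMap R F) hw'
      simpa only [map_mul, map_sub, map_pow] using this
    simp only [map_mul, map_pow]
    rw [hr₀]
    field_simp
    linear_combination h3

/-- **the near step at a regular node**: `τ e / e^Q ≡ s` modulo `u R_(u)` and modulo `v R_(v)` for a
unit `s` of `R`. -/
theorem s35l_near_node {u v : R} (hu : Prime u) (hv : Prime v)
    (hmax : maximalIdeal R = Ideal.span {u, v})
    (hvu : v ∉ (Ideal.span {u} : Ideal R)) (huv : u ∉ (Ideal.span {v} : Ideal R))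
    (τ : F ≃+* F) (τR : R ≃+* R)
    (hcompat : ∀ r : R, τ (algebraMap R F r) = algebraMap R F (τR r))
    (hτu : Ideal.span {τR u} = Ideal.span {u}) (hτv : Ideal.span {τR v} = Ideal.span {v})
    {Q m : ℕ} (hQ : 2 ≤ Q) (hm : m ≠ 0) (hfrob : ∀ r : R, τR r - r ^ Q ∈ maximalIdeal R)
    {e : F} (he_u : ssl_UnitAt F (Ideal.span {u}) e) (he_v : ssl_UnitAt F (Ideal.span {v}) e)
    (u₀ : Rˣ)
    (hcong_u : ssl_MemAt F (Ideal.span {u})
      (((τ e / e ^ Q) ^ m * algebraMap R F (u₀ : R) - 1) / algebraMap R F u))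
    (hcong_v : ssl_MemAt F (Ideal.span {v})
      (((τ e / e ^ Q) ^ m * algebraMap R F (u₀ : R) - 1) / algebraMap R F v)) :
    ∃ s : Rˣ, ssl_MemAt F (Ideal.span {u}) ((τ e / e ^ Q - algebraMap R F (s : R)) /
        algebraMap R F u) ∧
      ssl_MemAt F (Ideal.span {v}) ((τ e / e ^ Q - algebraMap R F (s : R)) / algebraMap R F v) := by
  haveI hppu : (Ideal.span {u} : Ideal R).IsPrime := (Ideal.span_singleton_prime hu.ne_zero).2 hu
  haveI hppv : (Ideal.span {v} : Ideal R).IsPrime := (Ideal.span_singleton_prime hv.ne_zero).2 hv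
  have huF : algebraMap R F u ≠ 0 := ssl_algebraMap_ne_zero hu.ne_zero
  have hvF : algebraMap R F v ≠ 0 := ssl_algebraMap_ne_zero hv.ne_zero
  have hmax' : maximalIdeal R = Ideal.span {v, u} := by rw [hmax, Set.pair_comm]
  obtain ⟨cu, hcu⟩ := s35l_branch hu hmax hvu τ τR hcompat hτu hQ hm he_u u₀ hcong_u
  obtain ⟨cv, hcv⟩ := s35l_branch hv hmax' huv τ τR hcompat hτv hQ hm he_v u₀ hcong_v
  -- the branch values
  obtain ⟨su, hsu⟩ : ∃ su : R, su = τR (cu : R) * ((cu⁻¹ : Rˣ) : R) ^ Q := ⟨_, rfl⟩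
  obtain ⟨sv, hsv⟩ : ∃ sv : R, sv = τR (cv : R) * ((cv⁻¹ : Rˣ) : R) ^ Q := ⟨_, rfl⟩
  have hval : ∀ c : Rˣ, τR (c : R) * ((c⁻¹ : Rˣ) : R) ^ Q - 1 ∈ maximalIdeal R := by
    intro c
    have h1 : τR (c : R) * ((c⁻¹ : Rˣ) : R) ^ Q - 1 =
        (τR (c : R) - (c : R) ^ Q) * ((c⁻¹ : Rˣ) : R) ^ Q := by
      have h2 : (c : R) ^ Q * ((c⁻¹ : Rˣ) : R) ^ Q = 1 := by
        rw [← mul_pow, ← Units.val_mul, mul_inv_cancel, Units.val_one, one_pow]
      rw [sub_mul, h2]
    rw [h1]
    exact Ideal.mul_mem_right _ _ (hfrob _)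
  have hF : ∀ c : Rˣ, algebraMap R F (τR (c : R) * ((c⁻¹ : Rˣ) : R) ^ Q) =
      algebraMap R F (τR (c : R)) / algebraMap R F (c : R) ^ Q := by
    intro c
    have hc0 : algebraMap R F (c : R) ≠ 0 := ssl_algebraMap_ne_zero c.ne_zero
    have h2 : algebraMap R F (c : R) * algebraMap R F ((c⁻¹ : Rˣ) : R) = 1 := by
      rw [← map_mul, ← Units.val_mul, mul_inv_cancel, Units.val_one, map_one]
    have h3 : algebraMap R F ((c⁻¹ : Rˣ) : R) = (algebraMap R F (c : R))⁻¹ :=
      eq_inv_of_mul_eq_one_right h2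
    rw [map_mul, map_pow, h3, inv_pow, div_eq_mul_inv]
  have hdiff : su - sv ∈ maximalIdeal R := by
    have : su - sv = (su - 1) - (sv - 1) := by ring
    rw [this, hsu, hsv]
    exact (maximalIdeal R).sub_mem (hval cu) (hval cv)
  rw [hmax, Ideal.mem_span_pair] at hdiff
  obtain ⟨α, β, hαβ⟩ := hdiff
  obtain ⟨s, hs⟩ : ∃ s : R, s = su - α * u := ⟨_, rfl⟩
  have hs' : s = sv + β * v := by rw [hs]; linear_combination (-1 : R) * hαβ
  have hsunit : IsUnit s := by
    by_contra hnu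
    have h4 : s ∈ maximalIdeal R := (IsLocalRing.mem_maximalIdeal _).2 hnu
    have hum : u ∈ maximalIdeal R := by rw [hmax]; exact Ideal.subset_span (by simp)
    have h5 : (1 : R) ∈ maximalIdeal R := by
      have h6 : (1 : R) = s - (su - 1) + α * u := by rw [hs]; ring
      rw [h6]
      exact (maximalIdeal R).add_mem ((maximalIdeal R).sub_mem h4 (hsu ▸ hval cu))
        (Ideal.mul_mem_left _ _ hum)
    exact (Ideal.ne_top_iff_one _).1 (IsLocalRing.maximalIdeal.isMaximal R).ne_top h5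
  refine ⟨hsunit.unit, ?_, ?_⟩
  · rw [IsUnit.unit_spec]
    have h7 : (τ e / e ^ Q - algebraMap R F s) / algebraMap R F u =
        (τ e / e ^ Q - algebraMap R F (τR (cu : R)) / algebraMap R F (cu : R) ^ Q) /
          algebraMap R F u + algebraMap R F α := by
      rw [hs, map_sub, map_mul, hsu, hF cu]
      field_simp
      ring
    rw [h7]
    exact ssl_memAt_add _ hcu (ssl_memAt_algebraMap _ α)
  · rw [IsUnit.unit_spec]
    have h7 : (τ e / e ^ Q - algebraMap R F s) / algebraMap R F v =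
        (τ e / e ^ Q - algebraMap R F (τR (cv : R)) / algebraMap R F (cv : R) ^ Q) /
          algebraMap R F v + algebraMap R F (-β) := by
      rw [hs', map_add, map_mul, hsv, hF cv, map_neg]
      field_simp
      ring
    rw [h7]
    exact ssl_memAt_add _ hcv (ssl_memAt_algebraMap _ (-β))

end Node

end Fermat.Agent.S35
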