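/-
Project S35, cell [L]-φ (helper10): THE LOCAL RING AT A REGULAR NODE (prefix `s35l_`).

`B ⊆ F0` a chart with two vertical primes `P1, P2 ≤ 𝔫` (`ϖ B = P1 ⊓ P2`), `𝔫` a maximal ideal,
`R = B_𝔫`.  REGULAR NODE: `u, v ∈ 𝔫 R` with `u v = ϖ e`, `e ∈ Rˣ`, `𝔫 R = (ϖ, u, v)`, `u` a unit at
`P1`, `v` a unit at `P2`.  Then (`s35l_node_ring`) `u`, `v` are prime elements of `R`,
`(u) = P2 R`, `(v) = P1 R`, `𝔪_R = (u, v)`; in particular `R` is factorial (`fc_ufd`).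
-/
import Mathlib
import Fermat.Agent.SS.Local.Chart
import Fermat.Agent.S35.LocalPhi.Gauss2
import Fermat.Agent.S35.LocalPhi.Transfer
import Fermat.Agent.S35.LocalPhi.Far

set_option autoImplicit false
set_option linter.unusedSectionVars false
set_option linter.style.haveILetI false

namespace Fermat.Agent.S35

open Fermat.Agent.SS Fermat.Agent.JT3 IsLocalRing

universe v

section NodeRing

variable {A0 : Type*} [CommRing A0] {F0 : Type v} [Field F0] [Algebra A0 F0]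
variable {B : Subalgebra A0 F0} [IsFractionRing B F0] [IsNoetherianRing B] [IsIntegrallyClosed B]
variable {π : A0} (𝔫 : Ideal B) [h𝔫 : 𝔫.IsMaximal]
variable {P1 P2 : Ideal B} [hP1 : P1.IsPrime] [hP2 : P2.IsPrime]

omit [IsNoetherianRing B] [IsIntegrallyClosed B] h𝔫 in
/-- an element of `R` which is a unit at `𝔮` does not lie in `𝔮`. -/
theorem s35l_not_mem_of_unitAt [h𝔫p : 𝔫.IsPrime] (𝔮 : Ideal (ssl_locSub F0 𝔫))
    {r : ssl_locSub F0 𝔫} (h : ssl_UnitAt F0 𝔮 (r : F0)) : r ∉ 𝔮 := by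
  obtain ⟨a, s, ha, hs, h⟩ := h
  intro hr
  apply ha
  have : r * s = a := Subtype.ext h
  rw [← this]
  exact 𝔮.mul_mem_right _ hr

/-- one half of the node: `(u) = Q' R` where `u` is a unit at `Q` and `v` is a unit at `Q'`. -/
theorem s35l_node_half (hϖ0 : algebraMap A0 F0 π ≠ 0)
    {Q Q' : Ideal B} [hQ : Q.IsPrime] [hQ' : Q'.IsPrime]
    (hr : Ideal.span {algebraMap A0 B π} = Q ⊓ Q') (hQQ' : ¬ Q ≤ Q')
    (hQ𝔫 : Q ≤ 𝔫) (hQ'𝔫 : Q' ≤ 𝔫)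
    (uR vR : ssl_locSub F0 𝔫) (eR : (ssl_locSub F0 𝔫)ˣ)
    (huv : uR * vR = algebraMap B (ssl_locSub F0 𝔫) (algebraMap A0 B π) * (eR : ssl_locSub F0 𝔫))
    (hu1 : ssl_UnitAt F0 Q (uR : F0)) (hv2 : ssl_UnitAt F0 Q' (vR : F0)) :
    (Ideal.span {uR} : Ideal (ssl_locSub F0 𝔫)) = Q'.map (algebraMap B (ssl_locSub F0 𝔫)) := by
  haveI h𝔫p : 𝔫.IsPrime := h𝔫.isPrime
  haveI := ssl_loc_isNoetherianRing (F0 := F0) 𝔫
  haveI := ssl_loc_isIntegrallyClosed (F0 := F0) 𝔫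
  haveI hQR := s35l_map_isPrime (F0 := F0) 𝔫 Q hQ𝔫
  haveI hQ'R := s35l_map_isPrime (F0 := F0) 𝔫 Q' hQ'𝔫
  set ϖR := algebraMap B (ssl_locSub F0 𝔫) (algebraMap A0 B π) with hϖR
  have hr' : Ideal.span {algebraMap A0 B π} = Q' ⊓ Q := by rw [hr, inf_comm]
  have hϖQQ' : algebraMap A0 B π ∈ Q ⊓ Q' := by
    rw [← hr]; exact Ideal.mem_span_singleton_self _
  have huQ : uR ∉ Q.map (algebraMap B (ssl_locSub F0 𝔫)) :=
    s35l_not_mem_of_unitAt 𝔫 _ ((s35l_unitAt_map_iff 𝔫 Q hQ𝔫).2 hu1)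
  have hvQ' : vR ∉ Q'.map (algebraMap B (ssl_locSub F0 𝔫)) :=
    s35l_not_mem_of_unitAt 𝔫 _ ((s35l_unitAt_map_iff 𝔫 Q' hQ'𝔫).2 hv2)
  have huQ' : uR ∈ Q'.map (algebraMap B (ssl_locSub F0 𝔫)) := by
    have : uR * vR ∈ Q'.map (algebraMap B (ssl_locSub F0 𝔫)) := by
      rw [huv]; exact Ideal.mul_mem_right _ _ (Ideal.mem_map_of_mem _ hϖQQ'.2)
    exact (hQ'R.mem_or_mem this).resolve_right hvQ'
  have hu0 : (uR : F0) ≠ 0 := ssl_unitAt_ne_zero Q hu1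
  have hv0 : (vR : F0) ≠ 0 := ssl_unitAt_ne_zero Q' hv2
  have he0 : ((eR : ssl_locSub F0 𝔫) : F0) ≠ 0 := by
    intro h0
    exact eR.ne_zero (Subtype.ext h0)
  have huvF : (uR : F0) * (vR : F0) = algebraMap A0 F0 π * ((eR : ssl_locSub F0 𝔫) : F0) :=
    congrArg (fun t : ssl_locSub F0 𝔫 => (t : F0)) huv
  apply le_antisymm
  · rw [Ideal.span_le, Set.singleton_subset_iff]; exact huQ'
  · intro z hz
    rw [Ideal.mem_span_singleton]
    -- `z / u ∈ R` by Krull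
    obtain ⟨r, hr⟩ := ssl_krull (R := ssl_locSub F0 𝔫) (F := F0) (z := (z : F0) / (uR : F0))
      (fun 𝔮 h𝔮 h1 => by
        haveI := h𝔮
        by_cases hu𝔮 : uR ∈ 𝔮
        · -- `𝔮` is vertical, hence `𝔮 = Q' R`
          have hϖ𝔮 : ϖR ∈ 𝔮 := by
            have h2 : ϖR * (eR : ssl_locSub F0 𝔫) ∈ 𝔮 := by
              rw [← huv]; exact 𝔮.mul_mem_right _ hu𝔮
            rcases h𝔮.mem_or_mem h2 with h3 | h3
            · exact h3
            · exact absurd (Ideal.eq_top_of_isUnit_mem _ h3 eR.isUnit) h𝔮.ne_top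
          have h𝔮eq : 𝔮 = Q'.map (algebraMap B (ssl_locSub F0 𝔫)) := by
            rcases s35l_vert_cases 𝔫 hϖ0 hr 𝔮 h1 hϖ𝔮 with ⟨-, h4⟩ | ⟨-, h4⟩
            · exact absurd (h4 ▸ hu𝔮) huQ
            · exact h4
          rw [h𝔮eq, s35l_memAt_map_iff 𝔫 Q' hQ'𝔫]
          -- `z / ϖ ∈ B_{Q'}` and `ϖ / u = v / e`
          obtain ⟨a, c, hc, hzc⟩ := (ssl_mem_locSub 𝔫 _).1 z.2
          have hzc : (z : F0) * (c : F0) = (a : F0) := hzc
          have haQ' : a ∈ Q' := (s35l_mem_map_of_frac 𝔫 Q' hQ'𝔫 z hc hzc).1 hz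
          have hc0 : (c : F0) ≠ 0 := by
            intro h0
            apply hc
            have : c = 0 := Subtype.ext h0
            rw [this]; exact 𝔫.zero_mem
          have h5 : (z : F0) / (uR : F0) =
              ((a : F0) / algebraMap A0 F0 π) * ((1 : B) : F0) / (c : F0) *
                ((vR : F0) * (((eR⁻¹ : (ssl_locSub F0 𝔫)ˣ) : ssl_locSub F0 𝔫) : F0)) := by
            have h6 : ((eR : ssl_locSub F0 𝔫) : F0) *
                (((eR⁻¹ : (ssl_locSub F0 𝔫)ˣ) : ssl_locSub F0 𝔫) : F0) = 1 := by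
              have h8 : ((eR : ssl_locSub F0 𝔫) * ((eR⁻¹ : (ssl_locSub F0 𝔫)ˣ) : ssl_locSub F0 𝔫) :
                  ssl_locSub F0 𝔫) = 1 := eR.mul_inv
              exact congrArg (fun t : ssl_locSub F0 𝔫 => (t : F0)) h8
            have h7 : (((eR⁻¹ : (ssl_locSub F0 𝔫)ˣ) : ssl_locSub F0 𝔫) : F0) =
                (((eR : ssl_locSub F0 𝔫) : F0))⁻¹ := eq_inv_of_mul_eq_one_right h6
            rw [h7, ← hzc]
            push_cast
            field_simp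
            linear_combination (-(z : F0)) * huvF
          rw [h5]
          refine ssl_memAt_mul Q' ?_ (s35l_memAt_of_mem_loc 𝔫 Q' hQ'𝔫
            (mul_mem vR.2 (((eR⁻¹ : (ssl_locSub F0 𝔫)ˣ) : ssl_locSub F0 𝔫)).2))
          rw [mul_div_assoc]
          exact ssl_memAt_mul Q' (s35l_far_pdiv Q' hϖ0 (s35l_vert_gen hr' hQQ') haQ')
            (s35l_memAt_div Q' fun hm => hc (hQ'𝔫 hm))
        · exact ⟨z, uR, hu𝔮, by
            show (z : F0) / (uR : F0) * (uR : F0) = (z : F0)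
            field_simp⟩)
    refine ⟨r, Subtype.ext ?_⟩
    have hr : (r : F0) = (z : F0) / (uR : F0) := hr
    show (z : F0) = (uR : F0) * (r : F0)
    rw [hr]
    field_simp

/-- **the local ring at a regular node.** -/
theorem s35l_node_ring (hϖ0 : algebraMap A0 F0 π ≠ 0)
    (hrad : Ideal.span {algebraMap A0 B π} = P1 ⊓ P2) (h12 : ¬ P1 ≤ P2) (h21 : ¬ P2 ≤ P1)
    (hP1𝔫 : P1 ≤ 𝔫) (hP2𝔫 : P2 ≤ 𝔫) {u v e : F0}
    (huv : u * v = algebraMap A0 F0 π * e)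
    (he : ∃ s t : B, s ∉ 𝔫 ∧ t ∉ 𝔫 ∧ (s : F0) * e = t)
    (hu : ∃ s t : B, s ∉ 𝔫 ∧ t ∈ 𝔫 ∧ (s : F0) * u = t)
    (hv : ∃ s t : B, s ∉ 𝔫 ∧ t ∈ 𝔫 ∧ (s : F0) * v = t)
    (hgen : ∀ z ∈ 𝔫, ∃ s c1 c2 c3 : B, s ∉ 𝔫 ∧
      (s : F0) * (z : F0) = algebraMap A0 F0 π * c1 + u * c2 + v * c3)
    (hu1 : ∃ s t : B, s ∉ P1 ∧ t ∉ P1 ∧ (s : F0) * u = t)
    (hv2 : ∃ s t : B, s ∉ P2 ∧ t ∉ P2 ∧ (s : F0) * v = t) :
    haveI : 𝔫.IsPrime := h𝔫.isPrime
    haveI := ssl_loc_isLocalRing (F0 := F0) 𝔫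
    ∃ (uR vR : ssl_locSub F0 𝔫) (eR : (ssl_locSub F0 𝔫)ˣ), (uR : F0) = u ∧ (vR : F0) = v ∧
      ((eR : ssl_locSub F0 𝔫) : F0) = e ∧
      uR * vR = algebraMap B (ssl_locSub F0 𝔫) (algebraMap A0 B π) * (eR : ssl_locSub F0 𝔫) ∧
      Prime uR ∧ Prime vR ∧
      maximalIdeal (ssl_locSub F0 𝔫) = Ideal.span {uR, vR} ∧
      (Ideal.span {uR} : Ideal (ssl_locSub F0 𝔫)) = P2.map (algebraMap B (ssl_locSub F0 𝔫)) ∧
      (Ideal.span {vR} : Ideal (ssl_locSub F0 𝔫)) = P1.map (algebraMap B (ssl_locSub F0 𝔫)) := by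
  haveI h𝔫p : 𝔫.IsPrime := h𝔫.isPrime
  haveI := ssl_loc_isLocalRing (F0 := F0) 𝔫
  obtain ⟨su, tu, hsu, htu, hu⟩ := hu
  obtain ⟨sv, tv, hsv, htv, hv⟩ := hv
  obtain ⟨se, te, hse, hte, he⟩ := he
  have hse0 : (se : F0) ≠ 0 := by
    intro h0
    apply hse
    have : se = 0 := Subtype.ext h0
    rw [this]; exact 𝔫.zero_mem
  have hte0 : (te : F0) ≠ 0 := by
    intro h0
    apply hte
    have : te = 0 := Subtype.ext h0
    rw [this]; exact 𝔫.zero_mem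
  have he0 : e ≠ 0 := by
    rintro rfl
    rw [mul_zero] at he
    exact hte0 he.symm
  set uR : ssl_locSub F0 𝔫 := ⟨u, ssl_loc_mem_of 𝔫 hsu hu⟩ with huR
  set vR : ssl_locSub F0 𝔫 := ⟨v, ssl_loc_mem_of 𝔫 hsv hv⟩ with hvR
  have heR : e ∈ ssl_locSub F0 𝔫 := ssl_loc_mem_of 𝔫 hse he
  have heR' : e⁻¹ ∈ ssl_locSub F0 𝔫 := ssl_loc_mem_of 𝔫 (s := te) (t := se) hte (by
    rw [← he]; field_simp)
  set eR : (ssl_locSub F0 𝔫)ˣ := ⟨⟨e, heR⟩, ⟨e⁻¹, heR'⟩, Subtype.ext (mul_inv_cancel₀ he0),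
    Subtype.ext (inv_mul_cancel₀ he0)⟩ with heRdef
  have huvR : uR * vR =
      algebraMap B (ssl_locSub F0 𝔫) (algebraMap A0 B π) * (eR : ssl_locSub F0 𝔫) :=
    Subtype.ext huv
  have hu1' : ssl_UnitAt F0 P1 ((uR : ssl_locSub F0 𝔫) : F0) := by
    obtain ⟨s, t, hs, ht, h⟩ := hu1
    exact ⟨t, s, ht, hs, by rw [mul_comm]; exact h⟩
  have hv2' : ssl_UnitAt F0 P2 ((vR : ssl_locSub F0 𝔫) : F0) := by
    obtain ⟨s, t, hs, ht, h⟩ := hv2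
    exact ⟨t, s, ht, hs, by rw [mul_comm]; exact h⟩
  have hspanu := s35l_node_half 𝔫 hϖ0 hrad h12 hP1𝔫 hP2𝔫 uR vR eR huvR hu1' hv2'
  have hspanv := s35l_node_half 𝔫 hϖ0 (show Ideal.span {algebraMap A0 B π} = P2 ⊓ P1 by
    rw [hrad, inf_comm]) h21 hP2𝔫 hP1𝔫 vR uR eR (by rw [mul_comm]; exact huvR) hv2' hu1'
  have hu0 : uR ≠ 0 := by
    intro h0
    have := ssl_unitAt_ne_zero P1 hu1'
    exact this (by rw [h0]; rfl)
  have hv0 : vR ≠ 0 := by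
    intro h0
    have := ssl_unitAt_ne_zero P2 hv2'
    exact this (by rw [h0]; rfl)
  have hpu : Prime uR := by
    rw [← Ideal.span_singleton_prime hu0, hspanu]
    exact s35l_map_isPrime 𝔫 P2 hP2𝔫
  have hpv : Prime vR := by
    rw [← Ideal.span_singleton_prime hv0, hspanv]
    exact s35l_map_isPrime 𝔫 P1 hP1𝔫
  refine ⟨uR, vR, eR, rfl, rfl, rfl, huvR, hpu, hpv, ?_, hspanu, hspanv⟩
  -- the maximal ideal
  have hϖuv : algebraMap B (ssl_locSub F0 𝔫) (algebraMap A0 B π) ∈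
      (Ideal.span {uR, vR} : Ideal (ssl_locSub F0 𝔫)) := by
    have h1 : algebraMap B (ssl_locSub F0 𝔫) (algebraMap A0 B π) =
        uR * (vR * ((eR⁻¹ : (ssl_locSub F0 𝔫)ˣ) : ssl_locSub F0 𝔫)) := by
      rw [← mul_assoc, huvR, mul_assoc, ← Units.val_mul, mul_inv_cancel, Units.val_one, mul_one]
    rw [h1]
    exact Ideal.mul_mem_right _ _ (Ideal.subset_span (by simp))
  rw [← IsLocalization.AtPrime.map_eq_maximalIdeal 𝔫 (ssl_locSub F0 𝔫)]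
  apply le_antisymm
  · rw [Ideal.map_le_iff_le_comap]
    intro z hz
    obtain ⟨s, c1, c2, c3, hs, hsz⟩ := hgen z hz
    have h1 : algebraMap B (ssl_locSub F0 𝔫) s * algebraMap B (ssl_locSub F0 𝔫) z =
        algebraMap B (ssl_locSub F0 𝔫) (algebraMap A0 B π) * algebraMap B (ssl_locSub F0 𝔫) c1 +
          uR * algebraMap B (ssl_locSub F0 𝔫) c2 + vR * algebraMap B (ssl_locSub F0 𝔫) c3 :=
      Subtype.ext hsz
    have h2 : algebraMap B (ssl_locSub F0 𝔫) s * algebraMap B (ssl_locSub F0 𝔫) z ∈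
        (Ideal.span {uR, vR} : Ideal (ssl_locSub F0 𝔫)) := by
      rw [h1]
      refine Ideal.add_mem _ (Ideal.add_mem _ ?_ ?_) ?_
      · exact Ideal.mul_mem_right _ _ hϖuv
      · exact Ideal.mul_mem_right _ _ (Ideal.subset_span (by simp))
      · exact Ideal.mul_mem_right _ _ (Ideal.subset_span (by simp))
    rw [Ideal.mem_comap]
    exact (Ideal.unit_mul_mem_iff_mem _ (ssl_loc_isUnit 𝔫 hs)).1 h2
  · rw [Ideal.span_le]
    rintro y (rfl | rfl)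
    · exact ssl_loc_mem_map_of 𝔫 hsu htu hu
    · exact ssl_loc_mem_map_of 𝔫 hsv htv hv

end NodeRing

end Fermat.Agent.S35
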