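/-
Project S35, cell [L]-φ (helper10): THE FROBENIUS AT A NODE, IN THE LOCAL RING (prefix `s35l_`).

`B ⊆ F0` a chart, `𝔫` a prime of `B`, `R = B_𝔫`; `τ` an automorphism of `F0` with `τ B = B` and
`τ b ≡ b^Q` modulo `𝔫` for all `b ∈ B` (`Q ≥ 1`; [FROB-N]).  Then `τ 𝔫 = 𝔫`, `τ R = R`, and the
induced automorphism `s35l_tauR` of `R` satisfies `τ r ≡ r^Q` modulo `𝔪_R`; if moreover `τ P ⊆ P` for
a prime `P ≤ 𝔫` with `P R = (p)`, `p` prime, then `(τ p) = (p)`.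
-/
import Mathlib
import Fermat.Agent.SS.Local.Chart
import Fermat.Agent.S35.LocalPhi.Transfer

set_option autoImplicit false
set_option linter.unusedSectionVars false
set_option linter.style.haveILetI false
set_option linter.unusedVariables false

namespace Fermat.Agent.S35

open Fermat.Agent.SS Fermat.Agent.JT3 IsLocalRing

universe v

section NodeTau

variable {A0 : Type*} [CommRing A0] {F0 : Type v} [Field F0] [Algebra A0 F0]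
variable {B : Subalgebra A0 F0} [IsFractionRing B F0] [IsNoetherianRing B] [IsIntegrallyClosed B]
variable (𝔫 : Ideal B) [h𝔫 : 𝔫.IsPrime]
variable (τ : F0 ≃+* F0) {Q : ℕ}

/-- the Frobenius hypothesis at `𝔫`: `τ B = B` and `τ b ≡ b^Q` modulo `𝔫`. -/
structure s35l_FrobAt (τ : F0 ≃+* F0) (Q : ℕ) (𝔫 : Ideal B) : Prop where
  mem : ∀ b ∈ B, τ b ∈ B
  symm_mem : ∀ b ∈ B, τ.symm b ∈ B
  frob : ∀ b b' : B, (b' : F0) = τ (b : F0) → b' - b ^ Q ∈ 𝔫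
  Q_ne : Q ≠ 0

variable {𝔫 τ}

namespace s35l_FrobAt

variable (hF : s35l_FrobAt τ Q 𝔫)
include hF

theorem not_mem {c c' : B} (hc : c ∉ 𝔫) (hcc' : (c' : F0) = τ (c : F0)) : c' ∉ 𝔫 := by
  intro h
  apply hc
  have h1 := hF.frob c c' hcc'
  have h2 : c ^ Q ∈ 𝔫 := by
    have := 𝔫.sub_mem h h1
    rwa [sub_sub_cancel] at this
  exact h𝔫.mem_of_pow_mem Q h2

theorem symm_not_mem {c c' : B} (hc : c ∉ 𝔫) (hcc' : (c' : F0) = τ.symm (c : F0)) : c' ∉ 𝔫 := by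
  intro h
  apply hc
  have h1 := hF.frob c' c (by rw [hcc', RingEquiv.apply_symm_apply])
  have h2 : c' ^ Q ∈ 𝔫 := by
    obtain ⟨k, rfl⟩ := Nat.exists_eq_succ_of_ne_zero hF.Q_ne
    rw [pow_succ]; exact 𝔫.mul_mem_left _ h
  have := 𝔫.add_mem h1 h2
  rwa [sub_add_cancel] at this

theorem loc_mem {z : F0} (hz : z ∈ ssl_locSub F0 𝔫) : τ z ∈ ssl_locSub F0 𝔫 := by
  obtain ⟨a, s, hs, h⟩ := (ssl_mem_loc 𝔫).1 hz
  refine (ssl_mem_loc 𝔫).2 ⟨⟨τ (a : F0), hF.mem _ a.2⟩, ⟨τ (s : F0), hF.mem _ s.2⟩,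
    hF.not_mem hs rfl, ?_⟩
  show τ z * τ (s : F0) = τ (a : F0)
  rw [← map_mul, h]

theorem loc_symm_mem {z : F0} (hz : z ∈ ssl_locSub F0 𝔫) : τ.symm z ∈ ssl_locSub F0 𝔫 := by
  obtain ⟨a, s, hs, h⟩ := (ssl_mem_loc 𝔫).1 hz
  refine (ssl_mem_loc 𝔫).2 ⟨⟨τ.symm (a : F0), hF.symm_mem _ a.2⟩,
    ⟨τ.symm (s : F0), hF.symm_mem _ s.2⟩, hF.symm_not_mem hs rfl, ?_⟩
  show τ.symm z * τ.symm (s : F0) = τ.symm (a : F0)
  rw [← map_mul, h]

end s35l_FrobAt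

/-- **the automorphism of `R = B_𝔫` induced by `τ`.** -/
noncomputable def s35l_tauR (hF : s35l_FrobAt τ Q 𝔫) : ssl_locSub F0 𝔫 ≃+* ssl_locSub F0 𝔫 where
  toFun z := ⟨τ (z : F0), hF.loc_mem z.2⟩
  invFun z := ⟨τ.symm (z : F0), hF.loc_symm_mem z.2⟩
  left_inv z := Subtype.ext (τ.symm_apply_apply _)
  right_inv z := Subtype.ext (τ.apply_symm_apply _)
  map_mul' a b := Subtype.ext (map_mul τ _ _)
  map_add' a b := Subtype.ext (map_add τ _ _)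

theorem s35l_tauR_coe (hF : s35l_FrobAt τ Q 𝔫) (z : ssl_locSub F0 𝔫) :
    ((s35l_tauR hF z : ssl_locSub F0 𝔫) : F0) = τ (z : F0) := rfl

/-- `τ r ≡ r^Q` modulo the maximal ideal of `R`. -/
theorem s35l_tauR_frob (hF : s35l_FrobAt τ Q 𝔫) (r : ssl_locSub F0 𝔫) :
    haveI := ssl_loc_isLocalRing (F0 := F0) 𝔫
    s35l_tauR hF r - r ^ Q ∈ maximalIdeal (ssl_locSub F0 𝔫) := by
  haveI := ssl_loc_isLocalRing (F0 := F0) 𝔫
  obtain ⟨a, c, hc, h⟩ := (ssl_mem_loc 𝔫).1 r.2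
  set a' : B := ⟨τ (a : F0), hF.mem _ a.2⟩ with ha'
  set c' : B := ⟨τ (c : F0), hF.mem _ c.2⟩ with hc'
  have hc'n : c' ∉ 𝔫 := hF.not_mem hc rfl
  have h1 : a' - a ^ Q ∈ 𝔫 := hF.frob a a' rfl
  have h2 : c' - c ^ Q ∈ 𝔫 := hF.frob c c' rfl
  have hs : c' * c ^ Q ∉ 𝔫 := fun hm =>
    (h𝔫.mem_or_mem hm).elim hc'n (fun h3 => hc (h𝔫.mem_of_pow_mem Q h3))
  have ht : a' * c ^ Q - a ^ Q * c' ∈ 𝔫 := by
    have : a' * c ^ Q - a ^ Q * c' = (a' - a ^ Q) * c ^ Q - a ^ Q * (c' - c ^ Q) := by ring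
    rw [this]
    exact 𝔫.sub_mem (𝔫.mul_mem_right _ h1) (𝔫.mul_mem_left _ h2)
  have hτr : τ (r : F0) * τ (c : F0) = τ (a : F0) := by rw [← map_mul, h]
  have hrQ : (r : F0) ^ Q * (c : F0) ^ Q = (a : F0) ^ Q := by rw [← mul_pow, h]
  have hkey : (((c' * c ^ Q : B) : B) : F0) * (τ (r : F0) - (r : F0) ^ Q) =
      (((a' * c ^ Q - a ^ Q * c' : B) : B) : F0) := by
    push_cast
    show τ (c : F0) * (c : F0) ^ Q * (τ (r : F0) - (r : F0) ^ Q) =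
      τ (a : F0) * (c : F0) ^ Q - (a : F0) ^ Q * τ (c : F0)
    rw [← hτr, ← hrQ]
    ring
  have := ssl_loc_mem_map_of 𝔫 hs ht hkey
  rw [IsLocalization.AtPrime.map_eq_maximalIdeal 𝔫 (ssl_locSub F0 𝔫)] at this
  exact this

/-- `(τ p) = (p)` for a prime element `p` of `R` generating `P R`, `τ P ⊆ P`. -/
theorem s35l_tauR_span (hF : s35l_FrobAt τ Q 𝔫) (P : Ideal B) [hP : P.IsPrime] (hP𝔫 : P ≤ 𝔫)
    (hτP : ∀ b b' : B, (b' : F0) = τ (b : F0) → b ∈ P → b' ∈ P)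
    {p : ssl_locSub F0 𝔫} (hp : Prime p)
    (hspan : (Ideal.span {p} : Ideal (ssl_locSub F0 𝔫)) =
      P.map (algebraMap B (ssl_locSub F0 𝔫))) :
    (Ideal.span {s35l_tauR hF p} : Ideal (ssl_locSub F0 𝔫)) = Ideal.span {p} := by
  obtain ⟨a, c, hc, h⟩ := (ssl_mem_loc 𝔫).1 p.2
  have haP : a ∈ P := by
    rw [← s35l_mem_map_of_frac 𝔫 P hP𝔫 p hc h, ← hspan]
    exact Ideal.mem_span_singleton_self p
  set a' : B := ⟨τ (a : F0), hF.mem _ a.2⟩ with ha'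
  set c' : B := ⟨τ (c : F0), hF.mem _ c.2⟩ with hc'
  have hc'n : c' ∉ 𝔫 := hF.not_mem hc rfl
  have ha'P : a' ∈ P := hτP a a' rfl haP
  have hmem : s35l_tauR hF p ∈ P.map (algebraMap B (ssl_locSub F0 𝔫)) := by
    rw [s35l_mem_map_of_frac 𝔫 P hP𝔫 (s35l_tauR hF p) (a := a') (c := c') hc'n (by
      show τ (p : F0) * τ (c : F0) = τ (a : F0)
      rw [← map_mul, h])]
    exact ha'P
  rw [← hspan, Ideal.mem_span_singleton] at hmem
  obtain ⟨w, hw⟩ := hmem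
  have hprime : Prime (s35l_tauR hF p) :=
    (MulEquiv.prime_iff (s35l_tauR hF).toMulEquiv).2 hp
  have hirr := hprime.irreducible
  rw [hw] at hirr
  have hwu : IsUnit w := (hirr.isUnit_or_isUnit rfl).resolve_left hp.not_isUnit
  rw [hw]
  exact Ideal.span_singleton_mul_right_unit hwu p

end NodeTau

end Fermat.Agent.S35
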