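/-
Project S35, cell [L]-φ (helper10): THE LOCAL FACTORISATION AT A SMOOTH POINT (prefix `s35l_`).

`B ⊆ F0` a chart (noetherian, integrally closed, fraction field `F0`) with two vertical primes
`P1, P2` (`ϖ B = P1 ⊓ P2`, incomparable), `𝔫 ∋ ϖ` a maximal ideal at which the special fibre is
smooth (`ss_SmoothAt`).  For EVERY `f ∈ F0ˣ` with `f ≡ 1` modulo `ϖ O` whose orders at the horizontal
primes through `𝔫` are divisible by `m`:

  `s35l_locAt_smooth` : `f = (1 + ϖ y) rᵐ`, `s y ∈ B` for some `s ∉ 𝔫`, `r - 1 ∈ ϖ O`.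

(No automorphism is involved at a smooth point.)
-/
import Mathlib
import Fermat.Agent.SS.Local.Chart
import Fermat.Agent.S35.LocalPhi.Decomp
import Fermat.Agent.S35.LocalPhi.Near
import Fermat.Agent.S35.LocalPhi.Assemble

set_option autoImplicit false
set_option linter.unusedSectionVars false
set_option linter.style.haveILetI false

namespace Fermat.Agent.S35

open Fermat.Agent.SS Fermat.Agent.JT3 IsLocalRing

universe v

section Common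

variable {A0 : Type*} [CommRing A0] {F0 : Type v} [Field F0] [Algebra A0 F0]
variable {B : Subalgebra A0 F0} [IsFractionRing B F0] [IsNoetherianRing B] [IsIntegrallyClosed B]
variable {π : A0} (𝔫 : Ideal B) [h𝔫 : 𝔫.IsMaximal]
variable {P1 P2 : Ideal B} [hP1 : P1.IsPrime] [hP2 : P2.IsPrime]

omit [IsNoetherianRing B] [IsIntegrallyClosed B] h𝔫 in
/-- an element `≡ 1` modulo `ϖ O` is a unit at both vertical primes. -/
theorem s35l_unitAt_of_h4a (hnu : (algebraMap A0 F0 π)⁻¹ ∉ B)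
    (hrad : Ideal.span {algebraMap A0 B π} = P1 ⊓ P2) (h12 : ¬ P1 ≤ P2) (h21 : ¬ P2 ≤ P1)
    {f : F0} (hf : f ≠ 0) (h4a : f - 1 ∈ sfc_piO B.toSubring (algebraMap A0 F0 π)) :
    ssl_UnitAt F0 P1 f ∧ ssl_UnitAt F0 P2 f := by
  have hϖB : algebraMap A0 F0 π ∈ B.toSubring := B.algebraMap_mem π
  have hfO : f ∈ sfc_O B.toSubring (algebraMap A0 F0 π) := by
    have : f = 1 + (f - 1) := by ring
    rw [this]
    exact add_mem (one_mem _) (sfc_piO_subset hϖB h4a)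
  obtain ⟨y, hy, hfy⟩ := h4a
  have hf' : f = 1 + algebraMap A0 F0 π * y := by rw [← hfy]; ring
  have hinv : f⁻¹ ∈ sfc_O B.toSubring (algebraMap A0 F0 π) := by
    rw [hf']; exact sfc_jac hϖB hnu hy
  have h1 := (s35l_mem_O_iff hrad h12 h21).1 hfO
  have h2 := (s35l_mem_O_iff hrad h12 h21).1 hinv
  exact ⟨(ssl_unitAt_iff P1 hf).2 ⟨h1.1, h2.1⟩, (ssl_unitAt_iff P2 hf).2 ⟨h1.2, h2.2⟩⟩

end Common

section Smooth

variable {A0 : Type*} [CommRing A0] {F0 : Type v} [Field F0] [Algebra A0 F0]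
variable {B : Subalgebra A0 F0} [IsFractionRing B F0] [IsNoetherianRing B] [IsIntegrallyClosed B]
variable {π : A0} (𝔫 : Ideal B) [h𝔫 : 𝔫.IsMaximal]
variable {P1 P2 : Ideal B} [hP1 : P1.IsPrime] [hP2 : P2.IsPrime]

/-- **THE LOCAL FACTORISATION AT A SMOOTH POINT.** -/
theorem s35l_locAt_smooth (hϖ0 : algebraMap A0 F0 π ≠ 0) (hπ𝔫 : algebraMap A0 B π ∈ 𝔫)
    (hrad : Ideal.span {algebraMap A0 B π} = P1 ⊓ P2) (h12 : ¬ P1 ≤ P2) (h21 : ¬ P2 ≤ P1)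
    (hsm : ss_SmoothAt π B 𝔫) {m : ℕ} (hm : m ≠ 0) {f : F0} (hf : f ≠ 0)
    (h4a : f - 1 ∈ sfc_piO B.toSubring (algebraMap A0 F0 π))
    (hdiv : ∀ 𝔮 : Ideal (ssl_locSub F0 𝔫),
      ssl_Horiz (algebraMap B (ssl_locSub F0 𝔫) (algebraMap A0 B π)) 𝔮 →
      ∃ G : F0, G ≠ 0 ∧ ssl_UnitAt F0 𝔮 (f / G ^ m)) :
    ∃ (r y : F0) (s : B), s ∉ 𝔫 ∧ (s : F0) * y ∈ B ∧
      f = (1 + algebraMap A0 F0 π * y) * r ^ m ∧
      r - 1 ∈ sfc_piO B.toSubring (algebraMap A0 F0 π) := by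
  haveI h𝔫p : 𝔫.IsPrime := h𝔫.isPrime
  haveI := ssl_loc_isNoetherianRing (F0 := F0) 𝔫
  haveI := ssl_loc_isIntegrallyClosed (F0 := F0) 𝔫
  haveI := ssl_loc_isLocalRing (F0 := F0) 𝔫
  obtain ⟨⟨t, ht⟩, hdom⟩ := hsm
  set ϖR := algebraMap B (ssl_locSub F0 𝔫) (algebraMap A0 B π) with hϖR
  have hprime : Prime ϖR := ssl_loc_prime_of_dom 𝔫 hϖ0 hπ𝔫 hdom
  have hmax := ssl_loc_max_of_genBy (F0 := F0) 𝔫 ht
  haveI : UniqueFactorizationMonoid (ssl_locSub F0 𝔫) := fc_ufd hprime hmax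
  haveI hpp : (Ideal.span {ϖR} : Ideal (ssl_locSub F0 𝔫)).IsPrime :=
    (Ideal.span_singleton_prime hprime.ne_zero).2 hprime
  have hp0 : (Ideal.span {ϖR} : Ideal (ssl_locSub F0 𝔫)) ≠ ⊥ := by
    rw [Ne, Ideal.span_singleton_eq_bot]; exact hprime.ne_zero
  have hnu := s35l_hnu 𝔫 hϖ0 hπ𝔫
  -- a near vertical prime `P` has `P R = (ϖ)`
  have hmap : ∀ (Q Q' : Ideal B) [Q.IsPrime], Ideal.span {algebraMap A0 B π} = Q ⊓ Q' →
      ¬ Q' ≤ Q → Q ≤ 𝔫 → Q.map (algebraMap B (ssl_locSub F0 𝔫)) = Ideal.span {ϖR} := by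
    intro Q Q' _ hr hnle hQ𝔫
    have hϖQ : algebraMap A0 B π ∈ Q := by
      have : algebraMap A0 B π ∈ Ideal.span {algebraMap A0 B π} := Ideal.mem_span_singleton_self _
      rw [hr] at this
      exact this.1
    have h1 : (Q.map (algebraMap B (ssl_locSub F0 𝔫))).height = 1 := by
      rw [IsLocalization.height_map_of_disjoint 𝔫.primeCompl Q (s35l_disjoint 𝔫 Q hQ𝔫)]
      exact s35l_vert_height hϖ0 hr hnle
    refine (ssl_eq_of_le_of_ne_bot hp0 h1 ?_).symm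
    rw [Ideal.span_le, Set.singleton_subset_iff]
    exact Ideal.mem_map_of_mem _ hϖQ
  have hmap1 : P1 ≤ 𝔫 → P1.map (algebraMap B (ssl_locSub F0 𝔫)) = Ideal.span {ϖR} :=
    hmap P1 P2 hrad h21
  have hmap2 : P2 ≤ 𝔫 → P2.map (algebraMap B (ssl_locSub F0 𝔫)) = Ideal.span {ϖR} :=
    hmap P2 P1 (by rw [hrad, inf_comm]) h12
  have hone : P1 ≤ 𝔫 ∨ P2 ≤ 𝔫 := by
    have : P1 ⊓ P2 ≤ 𝔫 := by
      rw [← hrad, Ideal.span_le, Set.singleton_subset_iff]; exact hπ𝔫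
    exact (Ideal.IsPrime.inf_le inferInstance).1 this
  obtain ⟨hfu1, hfu2⟩ := s35l_unitAt_of_h4a hnu hrad h12 h21 hf h4a
  obtain ⟨hfm1, hfm2⟩ := (s35l_mem_piO_iff hϖ0 hrad h12 h21).1 h4a
  -- `f` at the vertical prime of `R`
  have hfR : ssl_UnitAt F0 (Ideal.span {ϖR}) f ∧
      ssl_MemAt F0 (Ideal.span {ϖR}) ((f - 1) / algebraMap A0 F0 π) := by
    rcases hone with h | h
    · rw [← hmap1 h]
      exact ⟨(s35l_unitAt_map_iff 𝔫 P1 h).2 hfu1, (s35l_memAt_map_iff 𝔫 P1 h).2 hfm1⟩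
    · rw [← hmap2 h]
      exact ⟨(s35l_unitAt_map_iff 𝔫 P2 h).2 hfu2, (s35l_memAt_map_iff 𝔫 P2 h).2 hfm2⟩
  -- the decomposition `f = ε eᵐ`
  obtain ⟨ε, e, he0, he1, -, hfe⟩ := s35l_decomp (F := F0) (ϖ := ϖR) hprime hprime dvd_rfl dvd_rfl
    (fun 𝔮 h𝔮 h1 hϖ𝔮 => by
      haveI := h𝔮
      left
      refine (ssl_eq_of_le_of_ne_bot hp0 h1 ?_).symm
      rw [Ideal.span_le, Set.singleton_subset_iff]
      exact hϖ𝔮)
    (Or.inl rfl) m hf hfR.1 hfR.1 hdiv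
  -- the near step
  have hϖcoe : algebraMap (ssl_locSub F0 𝔫) F0 ϖR = algebraMap A0 F0 π := rfl
  obtain ⟨s, hs⟩ := s35l_near_smooth (F := F0) hprime hmax hm ε he1 (by
    rw [hϖcoe, mul_comm, ← hfe]; exact hfR.2)
  rw [hϖcoe] at hs
  have hs0 : algebraMap (ssl_locSub F0 𝔫) F0 (s : ssl_locSub F0 𝔫) ≠ 0 :=
    ssl_algebraMap_ne_zero s.ne_zero
  have hsinv : algebraMap (ssl_locSub F0 𝔫) F0 ((s⁻¹ : (ssl_locSub F0 𝔫)ˣ) : ssl_locSub F0 𝔫) =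
      (algebraMap (ssl_locSub F0 𝔫) F0 (s : ssl_locSub F0 𝔫))⁻¹ := by
    have h1 : algebraMap (ssl_locSub F0 𝔫) F0 (s : ssl_locSub F0 𝔫) *
        algebraMap (ssl_locSub F0 𝔫) F0 ((s⁻¹ : (ssl_locSub F0 𝔫)ˣ) : ssl_locSub F0 𝔫) = 1 := by
      rw [← map_mul, ← Units.val_mul, mul_inv_cancel, Units.val_one, map_one]
    exact eq_inv_of_mul_eq_one_right h1
  -- `r₁ = e / s`
  have hr₁ : ssl_MemAt F0 (Ideal.span {ϖR})
      ((e / algebraMap (ssl_locSub F0 𝔫) F0 (s : ssl_locSub F0 𝔫) - 1) / algebraMap A0 F0 π) := by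
    have h1 : (e / algebraMap (ssl_locSub F0 𝔫) F0 (s : ssl_locSub F0 𝔫) - 1) / algebraMap A0 F0 π =
        (e - algebraMap (ssl_locSub F0 𝔫) F0 (s : ssl_locSub F0 𝔫)) / algebraMap A0 F0 π *
          algebraMap (ssl_locSub F0 𝔫) F0 ((s⁻¹ : (ssl_locSub F0 𝔫)ˣ) : ssl_locSub F0 𝔫) := by
      rw [hsinv]
      field_simp
    rw [h1]
    exact ssl_memAt_mul _ hs (ssl_memAt_algebraMap _ _)
  refine s35l_assemble 𝔫 hϖ0 hπ𝔫 hrad h12 h21 m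
    (u₁ := algebraMap (ssl_locSub F0 𝔫) F0 ((ε : ssl_locSub F0 𝔫) * (s : ssl_locSub F0 𝔫) ^ m))
    (r₁ := e / algebraMap (ssl_locSub F0 𝔫) F0 (s : ssl_locSub F0 𝔫))
    (div_ne_zero he0 hs0) h4a
    (((ε : ssl_locSub F0 𝔫) * (s : ssl_locSub F0 𝔫) ^ m : ssl_locSub F0 𝔫)).2 ?_ ?_ ?_
  · rw [hfe, map_mul, map_pow, div_pow]
    have := pow_ne_zero m hs0
    field_simp
  · intro h
    rw [← s35l_memAt_map_iff 𝔫 P1 h, hmap1 h]
    exact hr₁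
  · intro h
    rw [← s35l_memAt_map_iff 𝔫 P2 h, hmap2 h]
    exact hr₁

end Smooth

end Fermat.Agent.S35
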