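/-
Project S35, cell [L]-φ (helper10): THE LOCAL FACTORISATIONS ON A CHART (prefix `s35l_`).

`A0` a discrete valuation ring with uniformiser `π`, `K = Frac A0`, `F0 / K` a field; `B ⊆ F0` an
`A0`-subalgebra (a chart; ABSTRACT), noetherian, integrally closed, with fraction field `F0`, with
two incomparable vertical primes `P1, P2` (`ϖ B = P1 ⊓ P2`); `τ` an automorphism of `F0` with
`τ P_i ⊆ P_i`.  Every closed point `𝔫 ∋ ϖ` of the chart is a smooth point (`ss_SmoothAt`) or a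
REGULAR FROBENIUS-FIXED NODE (`s35l_NodeAt`).  For `g ∈ F0ˣ`, a unit at `P1` and `P2`, with
`τ g / g^Q ≡ 1` modulo `ϖ O` and all orders of `g` and `τ g` at the places of `F0 / K` divisible
by `m`:

* `s35l_locAt_chart`  : at every `𝔫`, `τ g / g^Q = (1 + ϖ y) rᵐ`, `s y ∈ B`, `s ∉ 𝔫`, `r - 1 ∈ ϖ O`
                        (= `hloc` of `sfc_main_factor` on the chart `B`);
* `s35l_locAt_chart'` : the same in the form `hloc` of `sfc_main` (`h^m f ∈ B`, `h - b1 ∈ ϖ O`).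
-/
import Mathlib
import Fermat.Agent.S35.LocalPhi.SmoothPt
import Fermat.Agent.S35.LocalPhi.NodePt

set_option autoImplicit false
set_option linter.unusedSectionVars false
set_option linter.style.haveILetI false

namespace Fermat.Agent.S35

open Fermat.Agent.SS Fermat.Agent.JT3 IsLocalRing AlgebraicCurve

universe v

section Defs

variable {A0 : Type*} [CommRing A0] {F0 : Type v} [Field F0] [Algebra A0 F0]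

/-- **regular Frobenius-fixed node** of the special fibre of the chart `B`: `𝔫 ⊇ P1 + P2`,
`τ B = B`, `τ b ≡ b^Q` modulo `𝔫`; in `B_𝔫`: `u v = ϖ e` with `e` a unit, `u, v ∈ 𝔫 B_𝔫`,
`𝔫 B_𝔫 = (ϖ, u, v)`, `u` a unit at `P1`, `v` a unit at `P2`. -/
def s35l_NodeAt (π : A0) (τ : F0 ≃+* F0) (Q : ℕ) {B : Subalgebra A0 F0} (P1 P2 𝔫 : Ideal B) :
    Prop :=
  P1 ≤ 𝔫 ∧ P2 ≤ 𝔫 ∧ s35l_FrobAt τ Q 𝔫 ∧
    ∃ u v e : F0, u * v = algebraMap A0 F0 π * e ∧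
      (∃ s t : B, s ∉ 𝔫 ∧ t ∉ 𝔫 ∧ (s : F0) * e = t) ∧
      (∃ s t : B, s ∉ 𝔫 ∧ t ∈ 𝔫 ∧ (s : F0) * u = t) ∧
      (∃ s t : B, s ∉ 𝔫 ∧ t ∈ 𝔫 ∧ (s : F0) * v = t) ∧
      (∀ z ∈ 𝔫, ∃ s c1 c2 c3 : B, s ∉ 𝔫 ∧
        (s : F0) * (z : F0) = algebraMap A0 F0 π * c1 + u * c2 + v * c3) ∧
      (∃ s t : B, s ∉ P1 ∧ t ∉ P1 ∧ (s : F0) * u = t) ∧
      (∃ s t : B, s ∉ P2 ∧ t ∉ P2 ∧ (s : F0) * v = t)

end Defs

section Main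

variable {A0 : Type*} [CommRing A0] [IsDomain A0] [IsDiscreteValuationRing A0]
  {K : Type*} [Field K] [Algebra A0 K] [IsFractionRing A0 K]
  {F0 : Type v} [Field F0] [Algebra A0 F0] [Algebra K F0] [IsScalarTower A0 K F0]
variable {B : Subalgebra A0 F0} [IsFractionRing B F0] [IsNoetherianRing B] [IsIntegrallyClosed B]
variable {π : A0} {P1 P2 : Ideal B} [hP1 : P1.IsPrime] [hP2 : P2.IsPrime]

/-- **THE LOCAL FACTORISATIONS OF `τ g / g^Q` ON THE CHART `B`** (factor form). -/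
theorem s35l_locAt_chart (hπ : Irreducible π) (hϖ0 : algebraMap A0 F0 π ≠ 0)
    (hrad : Ideal.span {algebraMap A0 B π} = P1 ⊓ P2) (h12 : ¬ P1 ≤ P2) (h21 : ¬ P2 ≤ P1)
    (τ : F0 ≃+* F0) {Q : ℕ} (hQ : 2 ≤ Q)
    (hτP1 : ∀ b b' : B, (b' : F0) = τ (b : F0) → b ∈ P1 → b' ∈ P1)
    (hτP2 : ∀ b b' : B, (b' : F0) = τ (b : F0) → b ∈ P2 → b' ∈ P2)
    (hpts : ∀ 𝔫 : Ideal B, 𝔫.IsMaximal → algebraMap A0 B π ∈ 𝔫 →
      ss_SmoothAt π B 𝔫 ∨ s35l_NodeAt π τ Q P1 P2 𝔫)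
    {m : ℕ} (hm : m ≠ 0) {g : F0} (hg : g ≠ 0)
    (hg1 : ssl_UnitAt F0 P1 g) (hg2 : ssl_UnitAt F0 P2 g)
    (h4a : τ g / g ^ Q - 1 ∈ sfc_piO B.toSubring (algebraMap A0 F0 π))
    (hord : ∀ P : Place K F0, (m : ℤ) ∣ P.ord g)
    (hordτ : ∀ P : Place K F0, (m : ℤ) ∣ P.ord (τ g))
    (𝔫 : Ideal B) (h𝔫 : 𝔫.IsMaximal) (hπ𝔫 : algebraMap A0 B π ∈ 𝔫) :
    ∃ (r y : F0) (s : B), s ∉ 𝔫 ∧ (s : F0) * y ∈ B ∧
      τ g / g ^ Q = (1 + algebraMap A0 F0 π * y) * r ^ m ∧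
      r - 1 ∈ sfc_piO B.toSubring (algebraMap A0 F0 π) := by
  haveI h𝔫p : 𝔫.IsPrime := h𝔫.isPrime
  haveI := ssl_loc_isNoetherianRing (F0 := F0) 𝔫
  haveI := ssl_loc_isIntegrallyClosed (F0 := F0) 𝔫
  have hτg : τ g ≠ 0 := (map_ne_zero τ).2 hg
  have hf0 : τ g / g ^ Q ≠ 0 := div_ne_zero hτg (pow_ne_zero Q hg)
  rcases hpts 𝔫 h𝔫 hπ𝔫 with hsm | ⟨hP1𝔫, hP2𝔫, hF, u, v, e, huv, he, hu, hv, hgen, hu1, hv2⟩
  · -- smooth point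
    have hordf : ∀ P : Place K F0, (m : ℤ) ∣ P.ord (τ g / g ^ Q) := by
      intro P
      rw [div_eq_mul_inv, P.ord_mul hτg (inv_ne_zero (pow_ne_zero Q hg)), P.ord_inv]
      have h1 : P.ord (g ^ Q) = (Q : ℤ) * P.ord g := by
        have := P.ord_zpow g (Q : ℤ)
        rwa [zpow_natCast] at this
      rw [h1]
      exact dvd_add (hordτ P) (Dvd.dvd.neg_right (Dvd.dvd.mul_left (hord P) _))
    exact s35l_locAt_smooth 𝔫 hϖ0 hπ𝔫 hrad h12 h21 hsm hm hf0 h4a fun 𝔮 h𝔮 =>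
      ssl_hdiv_of_places (K := K) (R := ssl_locSub F0 𝔫) hπ hf0 m hordf 𝔮 h𝔮
  · -- regular node
    exact s35l_locAt_node 𝔫 hϖ0 hπ𝔫 hrad h12 h21 hP1𝔫 hP2𝔫 huv he hu hv hgen hu1 hv2 τ hQ hF
      hτP1 hτP2 hm hg hg1 hg2 h4a fun 𝔮 h𝔮 =>
      ssl_hdiv_of_places (K := K) (R := ssl_locSub F0 𝔫) hπ hg m hord 𝔮 h𝔮

/-- **THE LOCAL FACTORISATIONS OF `τ g / g^Q` ON THE CHART `B`**, in the form of the hypothesis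
`hloc` of `sfc_main`. -/
theorem s35l_locAt_chart' (hπ : Irreducible π) (hϖ0 : algebraMap A0 F0 π ≠ 0)
    (hrad : Ideal.span {algebraMap A0 B π} = P1 ⊓ P2) (h12 : ¬ P1 ≤ P2) (h21 : ¬ P2 ≤ P1)
    (τ : F0 ≃+* F0) {Q : ℕ} (hQ : 2 ≤ Q)
    (hτP1 : ∀ b b' : B, (b' : F0) = τ (b : F0) → b ∈ P1 → b' ∈ P1)
    (hτP2 : ∀ b b' : B, (b' : F0) = τ (b : F0) → b ∈ P2 → b' ∈ P2)
    (hpts : ∀ 𝔫 : Ideal B, 𝔫.IsMaximal → algebraMap A0 B π ∈ 𝔫 →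
      ss_SmoothAt π B 𝔫 ∨ s35l_NodeAt π τ Q P1 P2 𝔫)
    {m : ℕ} (hm : m ≠ 0) {g : F0} (hg : g ≠ 0)
    (hg1 : ssl_UnitAt F0 P1 g) (hg2 : ssl_UnitAt F0 P2 g)
    (h4a : τ g / g ^ Q - 1 ∈ sfc_piO B.toSubring (algebraMap A0 F0 π))
    (hord : ∀ P : Place K F0, (m : ℤ) ∣ P.ord g)
    (hordτ : ∀ P : Place K F0, (m : ℤ) ∣ P.ord (τ g)) :
    ∀ 𝔫 : Ideal B, 𝔫.IsMaximal → algebraMap A0 B π ∈ 𝔫 →
      ∃ (b1 : B) (h : F0), b1 ∉ 𝔫 ∧ h ^ m * (τ g / g ^ Q) ∈ B ∧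
        h - (b1 : F0) ∈ sfc_piO B.toSubring (algebraMap A0 F0 π) := by
  intro 𝔫 h𝔫 hπ𝔫
  obtain ⟨r, y, s, hs, hsy, hf, hr⟩ := s35l_locAt_chart (K := K) hπ hϖ0 hrad h12 h21 τ hQ hτP1 hτP2
    hpts hm hg hg1 hg2 h4a hord hordτ 𝔫 h𝔫 hπ𝔫
  exact sfc_loc_of_factor B π (s35l_hnu 𝔫 hϖ0 hπ𝔫) m hm _ 𝔫 hs hsy hf hr

end Main

end Fermat.Agent.S35
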